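/-
S34 (Program B'), dictionary leaf (DICT-KUMMER) (helper92): the geometric target `B1Exact M q p`
reduced to statements about FUNCTIONS.

* `smul_sub_smul_sub_eq_zero` (abstract, any `K`, `F`): for semilinear automorphisms `g`, `g'` and
  a class `x` killed by `m ≠ 0`:  if for every Kummer generator `u` (`m ∣ div u`) the function
  `g'(w) / w`, `w = g(u) / u`, has divisor `m · div h`, then `(g' - 1)(g - 1) x = 0`.
* `smul_smul_sub_eq_zero` : the case `g' = g`, conclusion `g • g • x - 2 • g • x + x = 0`.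
* `b1Exact_of_kummer` : `B1Exact M q p` from the Kummer statement for `τ` in the inertia groups.
* `b1Exact_of_steps` : `B1Exact M q p` from Step 1 (`τ u / u` has property `P`) and Step 2 (for `w`
  with property `P`, `τ w / w` has divisor `m · div h`), for an ARBITRARY property `P` of functions.
* `b1Exact_of_steps_pow` : the same with Step 2 concluding `τ w / w = c · h ^ m`.
-/
import Mathlib
import Fermat.Prelude.Def_AlgebraicCurve_BaseChangeGalois
import Fermat.Prelude.Def_ModularCurve_ArithmeticGalois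
import Fermat.Agent.S34.H27.Transfer

set_option autoImplicit false

open AlgebraicCurve ModularCurve

noncomputable section

namespace Fermat.Agent.S34.H92

section Abstract

variable {K F : Type*} [Field K] [Field F] [Algebra K F]

/-- `ord_v (g f) = ord_{g⁻¹ v} f`. -/
theorem ord_smul_eq (g : SemilinearAut K F) (v : Place K F) (f : F) :
    v.ord (g • f) = (g⁻¹ • v).ord f := by
  have h := SemilinearAut.ord_smul g (g⁻¹ • v) f
  rwa [smul_inv_smul] at h

theorem ord_div_eq (v : Place K F) {a b : F} (ha : a ≠ 0) (hb : b ≠ 0) :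
    v.ord (a / b) = v.ord a - v.ord b := by
  rw [div_eq_mul_inv, v.ord_mul ha (inv_ne_zero hb), v.ord_inv, sub_eq_add_neg]

theorem smul_ne_zero' (g : SemilinearAut K F) {f : F} (hf : f ≠ 0) : g • f ≠ 0 := by
  rw [SemilinearAut.smul_def]
  exact (map_ne_zero_iff _ (SemilinearAut.toRingAut g).injective).mpr hf

/-- The divisor of `g'(w) / w`, `w = g(u) / u`. -/
theorem ord_double_quot (g g' : SemilinearAut K F) (v : Place K F) {u : F} (hu : u ≠ 0) :
    v.ord (g' • (g • u / u) / (g • u / u))
      = (g⁻¹ • g'⁻¹ • v).ord u - (g'⁻¹ • v).ord u - (g⁻¹ • v).ord u + v.ord u := by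
  have hgu : g • u ≠ 0 := smul_ne_zero' g hu
  have hw : g • u / u ≠ 0 := div_ne_zero hgu hu
  have hgw : g' • (g • u / u) ≠ 0 := smul_ne_zero' g' hw
  rw [ord_div_eq v hgw hw, ord_smul_eq g' v, ord_div_eq _ hgu hu, ord_div_eq _ hgu hu,
    ord_smul_eq g, ord_smul_eq g]
  ring

/-- **(D0), two automorphisms.**  If for every Kummer generator `u` of exponent `m` the function
`g'(w) / w`, `w = g(u) / u`, has divisor `m · div h`, then `(g' - 1)(g - 1)` kills the
`m`-torsion classes. -/
theorem smul_sub_smul_sub_eq_zero (g g' : SemilinearAut K F) (m : ℕ) (hm : m ≠ 0)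
    (x : Pic0 K F) (hx : m • x = 0)
    (hk : ∀ u : F, u ≠ 0 → (∀ v : Place K F, (m : ℤ) ∣ v.ord u) →
      ∃ h : F, h ≠ 0 ∧ ∀ v : Place K F,
        v.ord (g' • (g • u / u) / (g • u / u)) = m * v.ord h) :
    g' • g • x - g' • x - g • x + x = 0 := by
  obtain ⟨D, rfl⟩ := Pic0.mk_surjective x
  -- the Kummer generator
  have hmD : Pic0.mk (m • D) = 0 := hx
  have hprin : ((m • D : Divisor.degZero (K := K) (F := F)) : Divisor K F)
      ∈ Divisor.principal (K := K) (F := F) := by
    have := (QuotientAddGroup.eq_zero_iff (m • D)).mp hmD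
    exact AddSubgroup.mem_addSubgroupOf.mp this
  obtain ⟨u, hu0, hu⟩ := hprin
  have hu' : ∀ v : Place K F, (m : ℤ) * (D : Divisor K F) v = v.ord u := by
    intro v
    rw [← hu v, AddSubgroup.coe_nsmul, Finsupp.smul_apply, nsmul_eq_mul]
  obtain ⟨h, hh0, hh⟩ := hk u hu0 (fun v => ⟨(D : Divisor K F) v, (hu' v).symm⟩)
  -- the class of the double difference
  rw [SemilinearAut.pic0_smul_mk, SemilinearAut.pic0_smul_mk, SemilinearAut.pic0_smul_mk]
  set E : Divisor.degZero (K := K) (F := F) :=
    SemilinearAut.degZeroSMulHom g' (SemilinearAut.degZeroSMulHom g D)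
      - SemilinearAut.degZeroSMulHom g' D - SemilinearAut.degZeroSMulHom g D + D with hE
  have hmk : Pic0.mk (SemilinearAut.degZeroSMulHom g' (SemilinearAut.degZeroSMulHom g D))
      - Pic0.mk (SemilinearAut.degZeroSMulHom g' D) - Pic0.mk (SemilinearAut.degZeroSMulHom g D)
      + Pic0.mk D = Pic0.mk E := rfl
  rw [hmk]
  refine (QuotientAddGroup.eq_zero_iff E).mpr (AddSubgroup.mem_addSubgroupOf.mpr ?_)
  refine ⟨h, hh0, fun v => ?_⟩
  have hEv : (E : Divisor K F) v
      = (D : Divisor K F) (g⁻¹ • g'⁻¹ • v) - (D : Divisor K F) (g'⁻¹ • v)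
        - (D : Divisor K F) (g⁻¹ • v) + (D : Divisor K F) v := by
    rw [hE]
    simp only [AddSubgroup.coe_add, AddSubgroup.coe_sub, SemilinearAut.coe_degZeroSMulHom,
      Finsupp.add_apply, Finsupp.sub_apply, SemilinearAut.divisor_smul_apply]
  have hm' : (m : ℤ) ≠ 0 := by exact_mod_cast hm
  apply mul_left_cancel₀ hm'
  rw [← hh v, ord_double_quot g g' v hu0, hEv, ← hu', ← hu', ← hu', ← hu']
  ring

/-- **(D0), one automorphism**: `(g - 1)² x = 0`. -/
theorem smul_smul_sub_eq_zero (g : SemilinearAut K F) (m : ℕ) (hm : m ≠ 0)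
    (x : Pic0 K F) (hx : m • x = 0)
    (hk : ∀ u : F, u ≠ 0 → (∀ v : Place K F, (m : ℤ) ∣ v.ord u) →
      ∃ h : F, h ≠ 0 ∧ ∀ v : Place K F,
        v.ord (g • (g • u / u) / (g • u / u)) = m * v.ord h) :
    g • g • x - 2 • g • x + x = 0 := by
  have key := smul_sub_smul_sub_eq_zero g g m hm x hx hk
  calc g • g • x - 2 • g • x + x = g • g • x - g • x - g • x + x := by
        rw [two_smul]
        abel
    _ = 0 := key

/-- A function which is an `m`-th power up to a nonzero constant has divisor `m · div h`. -/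
theorem ord_eq_of_eq_smul_pow (m : ℕ) {f h : F} {c : K} (hc : c ≠ 0) (hh : h ≠ 0)
    (hf : f = algebraMap K F c * h ^ m) (v : Place K F) : v.ord f = m * v.ord h := by
  have hcF : algebraMap K F c ≠ 0 := (map_ne_zero_iff _ (algebraMap K F).injective).mpr hc
  have hc0 : v.ord (algebraMap K F c) = 0 := by
    have h1 : algebraMap K F c ∈ v.toValuationSubring := v.algebraMap_mem' c
    have h2 : (algebraMap K F c)⁻¹ ∈ v.toValuationSubring := by
      rw [← map_inv₀]
      exact v.algebraMap_mem' c⁻¹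
    let U : v.toValuationSubringˣ :=
      ⟨⟨algebraMap K F c, h1⟩, ⟨(algebraMap K F c)⁻¹, h2⟩,
        Subtype.ext (mul_inv_cancel₀ hcF), Subtype.ext (inv_mul_cancel₀ hcF)⟩
    exact v.ord_coe_unit U
  rw [hf, v.ord_mul hcF (pow_ne_zero m hh), hc0, zero_add, ← zpow_natCast, v.ord_zpow]

end Abstract

section Modular

open Fermat.Agent.S34.H27

/-- **(DICT-KUMMER).**  `B1Exact M q p` from the Kummer statement: for `τ` in an inertia group at
`q` and every function `u` whose divisor is divisible by `p ^ n`, the function `τ(w) / w`,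
`w = τ(u) / u`, has divisor `p ^ n · div h`. -/
theorem b1Exact_of_kummer (M q p : ℕ) (hp : p ≠ 0)
    (hk : ∀ (n : ℕ) (A : ValuationSubring Qb), A.LiesOverPrime q →
      ∀ τ ∈ A.inertiaSubgroupIn ℚ, ∀ u : modularFunctionFieldBar M, u ≠ 0 →
        (∀ v : Place Qb (modularFunctionFieldBar M), ((p ^ n : ℕ) : ℤ) ∣ v.ord u) →
        ∃ h : modularFunctionFieldBar M, h ≠ 0 ∧
          ∀ v : Place Qb (modularFunctionFieldBar M),
            v.ord (arithmeticGalois (modularFunctionFieldFull M) τ •
                (arithmeticGalois (modularFunctionFieldFull M) τ • u / u)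
              / (arithmeticGalois (modularFunctionFieldFull M) τ • u / u))
              = ((p ^ n : ℕ) : ℤ) * v.ord h) :
    B1Exact M q p := by
  intro n A hA τ hτ x hx
  rw [galois_smul_pic0_def, galois_smul_pic0_def]
  exact smul_smul_sub_eq_zero (arithmeticGalois (modularFunctionFieldFull M) τ) (p ^ n)
    (pow_ne_zero n hp) x hx (hk n A hA τ hτ)

/-- **(DICT-KUMMER), two-step form.**  `B1Exact M q p` from
* Step 1: for `τ` in an inertia group at `q` and `u` with `p ^ n ∣ div u`, the function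
  `τ(u) / u` has the property `P n A`;
* Step 2: for `τ` in an inertia group at `q` and `w` with the property `P n A`, the function
  `τ(w) / w` has divisor `p ^ n · div h`.
The property `P` is arbitrary (in the application: "Cartier class"). -/
theorem b1Exact_of_steps (M q p : ℕ) (hp : p ≠ 0)
    (P : ℕ → ValuationSubring Qb → modularFunctionFieldBar M → Prop)
    (step1 : ∀ (n : ℕ) (A : ValuationSubring Qb), A.LiesOverPrime q →
      ∀ τ ∈ A.inertiaSubgroupIn ℚ, ∀ u : modularFunctionFieldBar M, u ≠ 0 →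
        (∀ v : Place Qb (modularFunctionFieldBar M), ((p ^ n : ℕ) : ℤ) ∣ v.ord u) →
        P n A (arithmeticGalois (modularFunctionFieldFull M) τ • u / u))
    (step2 : ∀ (n : ℕ) (A : ValuationSubring Qb), A.LiesOverPrime q →
      ∀ τ ∈ A.inertiaSubgroupIn ℚ, ∀ w : modularFunctionFieldBar M, w ≠ 0 → P n A w →
        ∃ h : modularFunctionFieldBar M, h ≠ 0 ∧
          ∀ v : Place Qb (modularFunctionFieldBar M),
            v.ord (arithmeticGalois (modularFunctionFieldFull M) τ • w / w)
              = ((p ^ n : ℕ) : ℤ) * v.ord h) :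
    B1Exact M q p := by
  refine b1Exact_of_kummer M q p hp (fun n A hA τ hτ u hu hdvd => ?_)
  have hw : arithmeticGalois (modularFunctionFieldFull M) τ • u / u ≠ 0 :=
    div_ne_zero (smul_ne_zero' _ hu) hu
  exact step2 n A hA τ hτ _ hw (step1 n A hA τ hτ u hu hdvd)

/-- **(DICT-KUMMER), two-step form with a power conclusion.**  As `b1Exact_of_steps`, with the
conclusion of Step 2 in the form `τ(w) / w = c · h ^ (p ^ n)`, `c` a nonzero constant. -/
theorem b1Exact_of_steps_pow (M q p : ℕ) (hp : p ≠ 0)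
    (P : ℕ → ValuationSubring Qb → modularFunctionFieldBar M → Prop)
    (step1 : ∀ (n : ℕ) (A : ValuationSubring Qb), A.LiesOverPrime q →
      ∀ τ ∈ A.inertiaSubgroupIn ℚ, ∀ u : modularFunctionFieldBar M, u ≠ 0 →
        (∀ v : Place Qb (modularFunctionFieldBar M), ((p ^ n : ℕ) : ℤ) ∣ v.ord u) →
        P n A (arithmeticGalois (modularFunctionFieldFull M) τ • u / u))
    (step2 : ∀ (n : ℕ) (A : ValuationSubring Qb), A.LiesOverPrime q →
      ∀ τ ∈ A.inertiaSubgroupIn ℚ, ∀ w : modularFunctionFieldBar M, w ≠ 0 → P n A w →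
        ∃ (h : modularFunctionFieldBar M) (c : Qb), h ≠ 0 ∧ c ≠ 0 ∧
          arithmeticGalois (modularFunctionFieldFull M) τ • w / w
            = algebraMap Qb (modularFunctionFieldBar M) c * h ^ (p ^ n)) :
    B1Exact M q p := by
  refine b1Exact_of_steps M q p hp P step1 (fun n A hA τ hτ w hw hPw => ?_)
  obtain ⟨h, c, hh, hc, heq⟩ := step2 n A hA τ hτ w hw hPw
  exact ⟨h, hh, fun v => ord_eq_of_eq_smul_pow (p ^ n) hc hh heq v⟩

end Modular

end Fermat.Agent.S34.H92
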