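/-
S34 (Program B'), analytic input of the regular-node step (helper92): levels without elliptic
points.

* `eq_one_or_eq_neg_one_of_isOfFinOrder`: if a prime `r ≡ 11 mod 12` divides `N`, every element
  of finite order of `Γ₀(N)` is `±1`.

Proof.  An element of finite order other than `±1` has trace `0`, `1` or `-1`
(`S30.H92.trace_of_isOfFinOrder`); modulo `r` its upper left entry `a` satisfies `a d = 1`, hence
`a² + 1 = 0` or `a² ∓ a + 1 = 0`, impossible for `r ≡ 3 mod 4`, resp. `r ≡ 2 mod 3`.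
-/
import Mathlib
import Fermat.Agent.S30.H92.FinOrder

set_option autoImplicit false

open CongruenceSubgroup
open scoped MatrixGroups

namespace Fermat.Agent.S34.H92

/-- `-1` is not a square modulo a prime `r ≡ 3 mod 4`. -/
theorem sq_add_one_ne_zero (r : ℕ) (hr : r.Prime) (hr4 : r % 4 = 3) (x : ZMod r) :
    x ^ 2 + 1 ≠ 0 := by
  haveI : Fact r.Prime := ⟨hr⟩
  intro hx
  have h : IsSquare (-1 : ZMod r) := ⟨x, by linear_combination -hx⟩
  exact (ZMod.exists_sq_eq_neg_one_iff.mp h) hr4

/-- There is no primitive cube root of unity modulo a prime `r ≡ 2 mod 3`. -/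
theorem sq_add_self_add_one_ne_zero (r : ℕ) (hr : r.Prime) (hr3 : r % 3 = 2) (x : ZMod r) :
    x ^ 2 + x + 1 ≠ 0 := by
  haveI : Fact r.Prime := ⟨hr⟩
  intro hx
  have hx3 : x ^ 3 = 1 := by linear_combination (x - 1) * hx
  have hx1 : x ≠ 1 := by
    rintro rfl
    have h3 : ((3 : ℕ) : ZMod r) = 0 := by
      push_cast
      linear_combination hx
    have hdvd : r ∣ 3 := (ZMod.natCast_eq_zero_iff 3 r).mp h3
    have : r = 3 := (Nat.prime_dvd_prime_iff_eq hr Nat.prime_three).mp hdvd
    omega
  have hx0 : x ≠ 0 := by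
    rintro rfl
    simp at hx3
  have hord : orderOf x = 3 := orderOf_eq_prime hx3 hx1
  have hdvd : orderOf x ∣ r - 1 := orderOf_dvd_of_pow_eq_one (ZMod.pow_card_sub_one_eq_one hx0)
  rw [hord] at hdvd
  have := hr.two_le
  omega

/-- **Levels without elliptic points.**  If a prime `r ≡ 11 mod 12` divides `N`, every element of
finite order of `Γ₀(N)` is `±1`. -/
theorem eq_one_or_eq_neg_one_of_isOfFinOrder (N r : ℕ) (hr : r.Prime) (hr12 : r % 12 = 11)
    (hrN : r ∣ N) (γ : SL(2, ℤ)) (hγ : γ ∈ Gamma0 N) (hfin : IsOfFinOrder γ) :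
    γ = 1 ∨ γ = -1 := by
  by_contra hcon
  push Not at hcon
  obtain ⟨h1, h2⟩ := hcon
  have htr := Fermat.Agent.S30.H92.trace_of_isOfFinOrder γ hfin h1 h2
  rw [Matrix.trace_fin_two] at htr
  have hdet := γ.det_coe
  rw [Matrix.det_fin_two] at hdet
  have hc : ((γ 1 0 : ℤ) : ZMod r) = 0 := by
    have hN : ((γ 1 0 : ℤ) : ZMod N) = 0 := Gamma0_mem.mp hγ
    have h3 : (N : ℤ) ∣ γ 1 0 := (ZMod.intCast_zmod_eq_zero_iff_dvd _ _).mp hN
    exact (ZMod.intCast_zmod_eq_zero_iff_dvd _ _).mpr
      ((Int.natCast_dvd_natCast.mpr hrN).trans h3)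
  have hdet' : ((γ 0 0 : ℤ) : ZMod r) * ((γ 1 1 : ℤ) : ZMod r) = 1 := by
    have := congrArg (fun z : ℤ => (z : ZMod r)) hdet
    simp only [Int.cast_sub, Int.cast_mul, Int.cast_one] at this
    rw [hc, mul_zero, sub_zero] at this
    exact this
  set a : ZMod r := ((γ 0 0 : ℤ) : ZMod r) with ha
  set d : ZMod r := ((γ 1 1 : ℤ) : ZMod r) with hd
  have hr4 : r % 4 = 3 := by omega
  have hr3 : r % 3 = 2 := by omega
  rcases htr with h | h | h
  · have h' : a + d = 0 := by
      have := congrArg (fun z : ℤ => (z : ZMod r)) h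
      simpa using this
    apply sq_add_one_ne_zero r hr hr4 a
    linear_combination -hdet' + a * h'
  · have h' : a + d = 1 := by
      have := congrArg (fun z : ℤ => (z : ZMod r)) h
      simpa using this
    apply sq_add_self_add_one_ne_zero r hr hr3 (-a)
    linear_combination -hdet' + a * h'
  · have h' : a + d = -1 := by
      have := congrArg (fun z : ℤ => (z : ZMod r)) h
      simpa using this
    apply sq_add_self_add_one_ne_zero r hr hr3 a
    linear_combination -hdet' + a * h'

end Fermat.Agent.S34.H92
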