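/-
S34 (Program B'), analytic input of the regular-node step (helper92): over a level without
elliptic points, the degeneracy map `α : F_N → F_{Nℓ}` is unramified at every finite place.

* `minimalPeriod_toPerm` : if `Γ₀(N)` has no elliptic element and `A ≠ ±1`, `A ^ s = ±1` with `s`
  prime, every orbit of `A` on `SL(2, ℤ) ⧸ Γ₀(N)` has length exactly `s`.
* `minimalPeriod_centerPerm` : hence every cycle of the local monodromy `centerPerm N c` has the
  same length `centerOrd c ∈ {3, 2, 1}` (at `c = 0`, `c = 1728`, otherwise).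
* `ord_jgen_sub` : so `ord_v (j - c) = centerOrd c` at EVERY place `v` of `F_N` over `j = c`.
* `ramificationIndexAlong_alpha_eq_one` : `e(w | α) = 1` for every finite place `w` of `F_{Nℓ}`.
-/
import Mathlib
import Fermat.Agent.S24.FinCenter
import Fermat.Agent.S24.Fiber
import Fermat.Agent.S24.Newton
import Fermat.Agent.S29.H5.OrdFin
import Fermat.Agent.S30.H92.ConvEll

set_option autoImplicit false

open UpperHalfPlane CongruenceSubgroup ModularCurve AlgebraicCurve
open Fermat.Agent.S24
open scoped MatrixGroups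

noncomputable section

namespace Fermat.Agent.S34.H92

/-- The hypothesis "`Γ₀(N)` has no elliptic element". -/
def NoElliptic (N : ℕ) : Prop :=
  ∀ γ : SL(2, ℤ), γ ∈ Gamma0 N → IsOfFinOrder γ → γ = 1 ∨ γ = -1

theorem Gamma0_le_of_dvd {N M : ℕ} (h : N ∣ M) : Gamma0 M ≤ Gamma0 N := by
  intro γ hγ
  rw [Gamma0_mem] at hγ ⊢
  have h3 : (M : ℤ) ∣ γ 1 0 := (ZMod.intCast_zmod_eq_zero_iff_dvd _ _).mp hγ
  exact (ZMod.intCast_zmod_eq_zero_iff_dvd _ _).mpr ((Int.natCast_dvd_natCast.mpr h).trans h3)

theorem NoElliptic.of_dvd {N M : ℕ} (h : N ∣ M) (hN : NoElliptic N) : NoElliptic M :=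
  fun γ hγ hfin => hN γ (Gamma0_le_of_dvd h hγ) hfin

/-- Orbits of an elliptic element on the cosets of a level without elliptic elements have full
length. -/
theorem minimalPeriod_toPerm {N : ℕ} (hN : NoElliptic N) (A : SL(2, ℤ)) (s : ℕ) (hs : s.Prime)
    (hAs : A ^ s = 1 ∨ A ^ s = -1) (h1 : A ≠ 1) (h2 : A ≠ -1) (x : XX N) :
    Function.minimalPeriod (MulAction.toPerm A : Equiv.Perm (XX N)) x = s := by
  have hper : Function.IsPeriodicPt (MulAction.toPerm A : Equiv.Perm (XX N)) s x := by
    show (MulAction.toPerm A : Equiv.Perm (XX N))^[s] x = x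
    have : ((MulAction.toPerm A : Equiv.Perm (XX N)) : XX N → XX N) = fun y => A • y := rfl
    rw [this, smul_iterate]
    show A ^ s • x = x
    rcases hAs with h | h
    · rw [h, one_smul]
    · rw [h]
      exact Fermat.Agent.S30.H92.neg_one_smul_XX N x
  have hdvd := hper.minimalPeriod_dvd
  rcases (Nat.dvd_prime hs).mp hdvd with h | h
  · exfalso
    have hfix : A • x = x := Function.minimalPeriod_eq_one_iff_isFixedPt.mp h
    induction x using QuotientGroup.induction_on with
    | H g =>
      have h3 : ((A * g : SL(2, ℤ)) : XX N) = (g : XX N) := hfix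
      have h4 : (A * g)⁻¹ * g ∈ Gamma0 N := QuotientGroup.eq.mp h3
      have hAfin : IsOfFinOrder A := by
        rw [isOfFinOrder_iff_pow_eq_one]
        refine ⟨2 * s, Nat.mul_pos two_pos hs.pos, ?_⟩
        rw [mul_comm, pow_mul]
        rcases hAs with h | h
        · rw [h, one_pow]
        · rw [h]
          norm_num
      have hconj : (A * g)⁻¹ * g = (MulAut.conj g⁻¹).toMonoidHom A⁻¹ := by
        simp [MulAut.conj_apply]
      have hfin : IsOfFinOrder ((A * g)⁻¹ * g) := by
        rw [hconj]
        exact MonoidHom.isOfFinOrder _ hAfin.inv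
      rcases hN _ h4 hfin with h6 | h6
      · apply h1
        have h7 : A * g = g := inv_mul_eq_one.mp h6
        exact mul_right_cancel (h7.trans (one_mul g).symm)
      · apply h2
        have h7 : g = (A * g) * (-1) := eq_mul_of_inv_mul_eq h6
        rw [mul_neg, mul_one] at h7
        have h8 : A * g = (-1) * g := by
          rw [neg_mul, one_mul]
          calc A * g = -(-(A * g)) := (neg_neg _).symm
            _ = -g := by rw [← h7]
        exact mul_right_cancel h8
  · exact h

open scoped Classical in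
/-- The common ramification index of `j` at the places over `j = c` when there is no elliptic
point: `3` at `c = 0`, `2` at `c = 1728`, `1` otherwise. -/
def centerOrd (c : Kbar) : ℕ := if c = 0 then 3 else if c = 1728 then 2 else 1

theorem centerOrd_pos (c : Kbar) : 0 < centerOrd c := by
  unfold centerOrd
  split_ifs <;> norm_num

theorem minimalPeriod_centerPerm {N : ℕ} (hN : NoElliptic N) (c : Kbar) (x : XX N) :
    Function.minimalPeriod (centerPerm N c) x = centerOrd c := by
  unfold centerPerm centerOrd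
  split_ifs with h0 h1
  · have htr : ((ModularGroup.S * ModularGroup.T : SL(2, ℤ)) : Matrix (Fin 2) (Fin 2) ℤ).trace
        = 1 := by
      simp [ModularGroup.S, ModularGroup.T, Matrix.trace_fin_two]
    refine minimalPeriod_toPerm hN _ 3 Nat.prime_three
      (Or.inr (Fermat.Agent.S30.H92.cube_eq_neg_one_of_trace _ htr)) ?_ ?_ x
    · intro h
      rw [h] at htr
      simp at htr
    · intro h
      rw [h] at htr
      simp at htr
  · have htr : ((ModularGroup.S : SL(2, ℤ)) : Matrix (Fin 2) (Fin 2) ℤ).trace = 0 := by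
      simp [ModularGroup.S, Matrix.trace_fin_two]
    refine minimalPeriod_toPerm hN _ 2 Nat.prime_two
      (Or.inr (Fermat.Agent.S30.H92.sq_eq_neg_one_of_trace _ htr)) ?_ ?_ x
    · intro h
      rw [h] at htr
      simp at htr
    · intro h
      rw [h] at htr
      simp at htr
  · exact Function.minimalPeriod_eq_one_iff_isFixedPt.mpr rfl

/-- Over a level without elliptic points, `j - c` has order exactly `centerOrd c` at every place
over `j = c`. -/
theorem ord_jgen_sub {N : ℕ} [NeZero N] (hN : NoElliptic N) (c : Kbar) (v : Place Kbar (FF N))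
    (hv : 0 < v.ord (jgen N - algebraMap Kbar (FF N) c)) :
    v.ord (jgen N - algebraMap Kbar (FF N) c) = centerOrd c := by
  let _ : Fintype (XX N) := Fintype.ofFinite _
  obtain ⟨L, hρ, -⟩ := exists_localData_fin N c
  obtain ⟨x, hx⟩ := L.exists_rel_of_place (Fermat.Agent.S29.H5.frac_range N) v hv
  rw [L.ord_π_eq_minimalPeriod (Fermat.Agent.S29.H5.frac_range N) v hv hx, hρ,
    minimalPeriod_centerPerm hN c x]

variable (N ℓ : ℕ) [NeZero N] [NeZero ℓ]

theorem alpha_jgen : heckeAlphaBar Kbar N ℓ (jgen N) = jgen (N * ℓ) :=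
  Subtype.ext rfl

theorem alpha_jgen_sub (c : Kbar) :
    heckeAlphaBar Kbar N ℓ (jgen N - algebraMap Kbar (FF N) c)
      = jgen (N * ℓ) - algebraMap Kbar (FF (N * ℓ)) c := by
  rw [map_sub, alpha_jgen, AlgHom.commutes]

/-- **No ramification at finite places.**  If `Γ₀(N)` has no elliptic element, the degeneracy map
`α : F_N → F_{Nℓ}` has ramification index `1` at every place `w` of `F_{Nℓ}` over a finite value
`j = c`. -/
theorem ramificationIndexAlong_alpha_eq_one (hN : NoElliptic N)
    (hα : HeckeAlphaBarIntegral Kbar N ℓ) (w : Place Kbar (FF (N * ℓ))) (c : Kbar)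
    (hw : 0 < w.ord (jgen (N * ℓ) - algebraMap Kbar (FF (N * ℓ)) c)) :
    Place.ramificationIndexAlong (heckeAlphaBar Kbar N ℓ) w = 1 := by
  have hN' : NoElliptic (N * ℓ) := hN.of_dvd (dvd_mul_right N ℓ)
  have h1 := ord_jgen_sub hN' c w hw
  have h2 := Place.ord_restrictAlong (heckeAlphaBar Kbar N ℓ) hα w
    (jgen N - algebraMap Kbar (FF N) c)
  rw [alpha_jgen_sub, h1] at h2
  have hpos := centerOrd_pos c
  have hv : 0 < (w.restrictAlong (heckeAlphaBar Kbar N ℓ) hα).ord
      (jgen N - algebraMap Kbar (FF N) c) := by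
    by_contra hcon
    push Not at hcon
    have : (Place.ramificationIndexAlong (heckeAlphaBar Kbar N ℓ) w : ℤ) *
        (w.restrictAlong (heckeAlphaBar Kbar N ℓ) hα).ord (jgen N - algebraMap Kbar (FF N) c)
        ≤ 0 := mul_nonpos_of_nonneg_of_nonpos (Int.natCast_nonneg _) hcon
    have h3 : (0 : ℤ) < centerOrd c := by exact_mod_cast hpos
    omega
  rw [ord_jgen_sub hN c _ hv] at h2
  have h3 : (centerOrd c : ℤ) ≠ 0 := by exact_mod_cast hpos.ne'
  have h4 : (Place.ramificationIndexAlong (heckeAlphaBar Kbar N ℓ) w : ℤ) = 1 := by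
    have h5 : (Place.ramificationIndexAlong (heckeAlphaBar Kbar N ℓ) w : ℤ) * centerOrd c
        = 1 * centerOrd c := by rw [one_mul]; exact h2.symm
    exact mul_right_cancel₀ h3 h5
  exact_mod_cast h4

/-- Consequence: `ord_w (α f) = ord_v f` for the place `v` below a finite place `w`. -/
theorem ord_alpha_eq (hN : NoElliptic N) (hα : HeckeAlphaBarIntegral Kbar N ℓ)
    (w : Place Kbar (FF (N * ℓ))) (c : Kbar)
    (hw : 0 < w.ord (jgen (N * ℓ) - algebraMap Kbar (FF (N * ℓ)) c)) (f : FF N) :
    w.ord (heckeAlphaBar Kbar N ℓ f) = (w.restrictAlong (heckeAlphaBar Kbar N ℓ) hα).ord f := by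
  rw [Place.ord_restrictAlong (heckeAlphaBar Kbar N ℓ) hα w f,
    ramificationIndexAlong_alpha_eq_one N ℓ hN hα w c hw, Nat.cast_one, one_mul]

end Fermat.Agent.S34.H92
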