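/-
S34 (Program B'), analytic input of the regular-node step (helper92), final forms.

* `noElliptic_of_prime` : a prime `r ≡ 11 mod 12` dividing `N` removes the elliptic points.
* `ramificationIndexAlong_alpha` : `e(w | α) = 1` at every finite place `w` of `F_{Nℓ}`
  (no integrality hypothesis: `S37.H87.heckeAlphaBarIntegral`).
* `card_fiberAlong_alpha` : over a finite place `v` of `F_N` there are exactly `[F_{Nℓ} : α F_N]`
  places of `F_{Nℓ}`; `card_fiberAlong_alpha_prime` : this number is `ℓ + 1` for a prime `ℓ ∤ N`.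
-/
import Mathlib
import Fermat.Agent.S34.H92.NoEll
import Fermat.Agent.S34.H92.Unram
import Fermat.Agent.S37.H87.HeckeDegree
import Fermat.Agent.S37.H13.HeckeInputs
import Fermat.Agent.S18.H13.PrincDiv

set_option autoImplicit false

open UpperHalfPlane CongruenceSubgroup ModularCurve AlgebraicCurve
open Fermat.Agent.S24
open scoped MatrixGroups

noncomputable section

namespace Fermat.Agent.S34.H92

/-- A prime `r ≡ 11 mod 12` dividing the level removes the elliptic points. -/
theorem noElliptic_of_prime (N r : ℕ) (hr : r.Prime) (hr12 : r % 12 = 11) (hrN : r ∣ N) :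
    NoElliptic N :=
  fun γ hγ hfin => eq_one_or_eq_neg_one_of_isOfFinOrder N r hr hr12 hrN γ hγ hfin

variable (N ℓ : ℕ) [NeZero N] [NeZero ℓ]

/-- **No ramification at finite places** (final form). -/
theorem ramificationIndexAlong_alpha (hN : NoElliptic N) (w : Place Kbar (FF (N * ℓ)))
    (c : Kbar) (hw : 0 < w.ord (jgen (N * ℓ) - algebraMap Kbar (FF (N * ℓ)) c)) :
    Place.ramificationIndexAlong (heckeAlphaBar Kbar N ℓ) w = 1 :=
  ramificationIndexAlong_alpha_eq_one N ℓ hN (Fermat.Agent.S37.H87.heckeAlphaBarIntegral N ℓ) w c hw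

/-- A place of `F_{Nℓ}` above a place of `F_N` over `j = c` is over `j = c`. -/
theorem ord_pos_of_restrictAlong (hα : HeckeAlphaBarIntegral Kbar N ℓ)
    (w : Place Kbar (FF (N * ℓ))) (c : Kbar)
    (hv : 0 < (w.restrictAlong (heckeAlphaBar Kbar N ℓ) hα).ord
      (jgen N - algebraMap Kbar (FF N) c)) :
    0 < w.ord (jgen (N * ℓ) - algebraMap Kbar (FF (N * ℓ)) c) := by
  have h2 := Place.ord_restrictAlong (heckeAlphaBar Kbar N ℓ) hα w
    (jgen N - algebraMap Kbar (FF N) c)
  rw [alpha_jgen_sub] at h2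
  rw [h2]
  have hpos : 0 < Place.ramificationIndexAlong (heckeAlphaBar Kbar N ℓ) w := by
    letI := algebraAlong (heckeAlphaBar Kbar N ℓ)
    haveI := isScalarTower_along (heckeAlphaBar Kbar N ℓ)
    haveI := isIntegral_along (heckeAlphaBar Kbar N ℓ) hα
    exact Place.ramificationIndex_pos (F := FF N) w
  exact mul_pos (by exact_mod_cast hpos) hv

/-- **Full fibres.**  If `Γ₀(N)` has no elliptic element, there are exactly `[F_{Nℓ} : α F_N]`
places of `F_{Nℓ}` above every finite place of `F_N`. -/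
theorem card_fiberAlong_alpha [HasPrincipalDivisors Kbar (FF (N * ℓ))] (hN : NoElliptic N)
    (v : Place Kbar (FF N)) (c : Kbar)
    (hv : 0 < v.ord (jgen N - algebraMap Kbar (FF N) c)) :
    (Place.fiberAlong (heckeAlphaBar Kbar N ℓ)
        (Fermat.Agent.S37.H87.heckeAlphaBarIntegral N ℓ) v).card
      = finrankAlong Kbar (heckeAlphaBar Kbar N ℓ) := by
  have hα := Fermat.Agent.S37.H87.heckeAlphaBarIntegral N ℓ
  have hFI := Fermat.Agent.S37.H13.fundamentalIdentityAlong_alpha N ℓ
  have hsum : ∑ w ∈ Place.fiberAlong (heckeAlphaBar Kbar N ℓ) hα v,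
      ((Place.ramificationIndexAlong (heckeAlphaBar Kbar N ℓ) w : ℤ) * (w.deg : ℤ))
      = (finrankAlong Kbar (heckeAlphaBar Kbar N ℓ) : ℤ) * (v.deg : ℤ) := by
    letI := algebraAlong (heckeAlphaBar Kbar N ℓ)
    haveI := isScalarTower_along (heckeAlphaBar Kbar N ℓ)
    haveI := isIntegral_along (heckeAlphaBar Kbar N ℓ) hα
    haveI : FundamentalIdentity Kbar (FF N) (FF (N * ℓ)) := hFI
    exact FundamentalIdentity.sum_ramificationIndex_mul_deg v
  have hterm : ∀ w ∈ Place.fiberAlong (heckeAlphaBar Kbar N ℓ) hα v,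
      ((Place.ramificationIndexAlong (heckeAlphaBar Kbar N ℓ) w : ℤ) * (w.deg : ℤ)) = 1 := by
    intro w hw
    have hwv : w.restrictAlong (heckeAlphaBar Kbar N ℓ) hα = v := Place.mem_fiberAlong.mp hw
    have hw' : 0 < w.ord (jgen (N * ℓ) - algebraMap Kbar (FF (N * ℓ)) c) := by
      apply ord_pos_of_restrictAlong N ℓ hα w c
      rw [hwv]
      exact hv
    rw [ramificationIndexAlong_alpha_eq_one N ℓ hN hα w c hw',
      Fermat.Agent.S18.H13.deg_eq_one_FF (N * ℓ) w]
    norm_num
  rw [Finset.sum_congr rfl hterm, Fermat.Agent.S18.H13.deg_eq_one_FF N v] at hsum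
  simp only [Finset.sum_const, nsmul_eq_mul, mul_one, Nat.cast_one] at hsum
  exact_mod_cast hsum

/-- Full fibres for a prime `ℓ ∤ N`: exactly `ℓ + 1` places above every finite place. -/
theorem card_fiberAlong_alpha_prime [HasPrincipalDivisors Kbar (FF (N * ℓ))] (hN : NoElliptic N)
    (hℓ : ℓ.Prime) (hℓN : ¬ ℓ ∣ N) (v : Place Kbar (FF N)) (c : Kbar)
    (hv : 0 < v.ord (jgen N - algebraMap Kbar (FF N) c)) :
    (Place.fiberAlong (heckeAlphaBar Kbar N ℓ)
        (Fermat.Agent.S37.H87.heckeAlphaBarIntegral N ℓ) v).card = ℓ + 1 := by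
  rw [card_fiberAlong_alpha N ℓ hN v c hv,
    Fermat.Agent.S37.H87.finrankAlong_alpha_prime N ℓ hℓ hℓN]

end Fermat.Agent.S34.H92
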