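/-
Program B' (S34), leaf (BASE) (helper92), part 3: VALUATION INDEPENDENCE (Mathlib only).

`A` a valuation subring of a field `F`, `E` a subfield in which `q` is a uniformiser of `A ∩ E`
(`hunram`), `π` a nonzero nonunit of `A` with `v(q) ≤ v(π) ^ e`.  Then
* `coeff_mem_of_sum_mem` : `∑ i < e, c i π ^ i ∈ A` with `c i ∈ E` forces `c i ∈ A`;
* `coeff_eq_zero_of_sum_eq_zero` : `1, π, …, π ^ (e - 1)` are linearly independent over `E`;
* `exists_eisenstein` : if moreover `π ^ e = q * unit` and `π ^ e` is an `E`-combination of the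
  lower powers, then `π` is a root of an Eisenstein polynomial of degree `e` over `A ∩ E`.
-/
import Mathlib

set_option autoImplicit false

namespace Fermat.Agent.S34.H92

open Polynomial

variable {F : Type*} [Field F] (A : ValuationSubring F) (E : Subfield F) (q π : F) (e : ℕ)

/-- The values of `c i * π ^ i` are pairwise distinct (for nonzero terms). -/
theorem val_term_ne (hπ : π ∈ A.nonunits) (hπ0 : π ≠ 0)
    (hunram : ∀ a ∈ E, a ∈ A.nonunits → a / q ∈ A) (hq0 : q ≠ 0) (hqπ : q / π ^ e ∈ A)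
    (c : Fin e → F) (hc : ∀ i, c i ∈ E) {i j : Fin e} (hij : i < j)
    (hi : c i ≠ 0) (hj : c j ≠ 0) :
    A.valuation (c i * π ^ (i : ℕ)) ≠ A.valuation (c j * π ^ (j : ℕ)) := by
  intro h
  have hvπ : A.valuation π < 1 := A.mem_nonunits_iff.1 hπ
  have hvπ0 : A.valuation π ≠ 0 := (Valuation.ne_zero_iff _).2 hπ0
  have hvπpos : 0 < A.valuation π := zero_lt_iff.2 hvπ0
  have hijn : (i : ℕ) < (j : ℕ) := hij
  -- `d = c i / c j` has the value of `π ^ (j - i)`
  have hd : A.valuation (c i / c j) = A.valuation π ^ ((j : ℕ) - (i : ℕ)) := by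
    have h1 : c j * π ^ (j : ℕ) = (c j * π ^ (i : ℕ)) * π ^ ((j : ℕ) - (i : ℕ)) := by
      rw [mul_assoc, ← pow_add, Nat.add_sub_cancel' hijn.le]
    have h2 : c i * π ^ (i : ℕ) = (c j * π ^ (i : ℕ)) * (c i / c j) := by
      field_simp
    rw [h1, h2, map_mul, map_mul (A.valuation) (c j * π ^ (i : ℕ)), map_pow] at h
    have h3 : A.valuation (c j * π ^ (i : ℕ)) ≠ 0 :=
      (Valuation.ne_zero_iff _).2 (mul_ne_zero hj (pow_ne_zero _ hπ0))
    exact mul_left_cancel₀ h3 h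
  have hdlt : A.valuation (c i / c j) < 1 := by
    rw [hd]
    exact pow_lt_one₀ hvπpos.le hvπ (Nat.sub_ne_zero_of_lt hijn)
  have hdE : c i / c j ∈ E := E.div_mem (hc i) (hc j)
  have hdq : A.valuation (c i / c j / q) ≤ 1 :=
    (A.valuation_le_one_iff _).2 (hunram _ hdE (A.mem_nonunits_iff.2 hdlt))
  have hqπ' : A.valuation (q / π ^ e) ≤ 1 := (A.valuation_le_one_iff _).2 hqπ
  -- `v(d) ≤ v(q) ≤ v(π) ^ e`
  have hle : A.valuation (c i / c j) ≤ A.valuation π ^ e := by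
    have h4 : c i / c j = (c i / c j / q) * (q / π ^ e) * π ^ e := by
      field_simp
    rw [h4, map_mul, map_mul, map_pow]
    calc A.valuation (c i / c j / q) * A.valuation (q / π ^ e) * A.valuation π ^ e
        ≤ 1 * 1 * A.valuation π ^ e := by gcongr
      _ = A.valuation π ^ e := by rw [one_mul, one_mul]
  rw [hd] at hle
  have hlt : (j : ℕ) - (i : ℕ) < e := lt_of_le_of_lt (Nat.sub_le _ _) j.2
  exact absurd hle (not_le.2 (pow_lt_pow_right_of_lt_one₀ hvπpos hvπ hlt))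

/-- **Integrality of the coordinates.** -/
theorem coeff_mem_of_sum_mem (hπ : π ∈ A.nonunits) (hπ0 : π ≠ 0)
    (hunram : ∀ a ∈ E, a ∈ A.nonunits → a / q ∈ A) (hq0 : q ≠ 0) (hqπ : q / π ^ e ∈ A)
    (c : Fin e → F) (hc : ∀ i, c i ∈ E) (hsum : ∑ i, c i * π ^ (i : ℕ) ∈ A) :
    ∀ i, c i ∈ A := by
  classical
  by_contra hcon
  push Not at hcon
  obtain ⟨i₁, hi₁⟩ := hcon
  have hvπ : A.valuation π < 1 := A.mem_nonunits_iff.1 hπ
  have hvπ0 : A.valuation π ≠ 0 := (Valuation.ne_zero_iff _).2 hπ0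
  have hvπpos : 0 < A.valuation π := zero_lt_iff.2 hvπ0
  have hqπ' : A.valuation (q / π ^ e) ≤ 1 := (A.valuation_le_one_iff _).2 hqπ
  -- the term `i₁` has value `> 1`
  have hbig : 1 < A.valuation (c i₁ * π ^ (i₁ : ℕ)) := by
    have hc0 : c i₁ ≠ 0 := by
      rintro h0
      exact hi₁ (h0 ▸ zero_mem A)
    have hvc : 1 < A.valuation (c i₁) := not_le.1 fun h => hi₁ ((A.valuation_le_one_iff _).1 h)
    have hinv : (c i₁)⁻¹ ∈ A.nonunits := by
      rw [A.mem_nonunits_iff, map_inv₀]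
      exact inv_lt_one_of_one_lt₀ hvc
    have h1 : A.valuation ((c i₁)⁻¹ / q) ≤ 1 :=
      (A.valuation_le_one_iff _).2 (hunram _ (E.inv_mem (hc i₁)) hinv)
    -- `1 ≤ v(c) v(π)^e`
    have h2 : (1 : A.ValueGroup) ≤ A.valuation (c i₁) * A.valuation π ^ e := by
      have h3 : (1 : F) = ((c i₁)⁻¹ / q) * (q / π ^ e) * (c i₁ * π ^ e) := by
        field_simp
      have h4 : A.valuation (1 : F) ≤ 1 * 1 * (A.valuation (c i₁) * A.valuation π ^ e) := by
        conv_lhs => rw [h3]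
        rw [map_mul, map_mul, map_mul, map_pow]
        gcongr
      rwa [map_one, one_mul, one_mul] at h4
    rw [map_mul, map_pow]
    have h5 : A.valuation π ^ e < A.valuation π ^ (i₁ : ℕ) :=
      pow_lt_pow_right_of_lt_one₀ hvπpos hvπ i₁.2
    have hvcpos : 0 < A.valuation (c i₁) := lt_trans zero_lt_one hvc
    calc (1 : A.ValueGroup) ≤ A.valuation (c i₁) * A.valuation π ^ e := h2
      _ < A.valuation (c i₁) * A.valuation π ^ (i₁ : ℕ) := by gcongr
  -- the maximal term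
  obtain ⟨i₀, -, hmax⟩ := Finset.exists_max_image Finset.univ
    (fun i : Fin e => A.valuation (c i * π ^ (i : ℕ))) ⟨i₁, Finset.mem_univ _⟩
  have hbig₀ : 1 < A.valuation (c i₀ * π ^ (i₀ : ℕ)) :=
    lt_of_lt_of_le hbig (hmax i₁ (Finset.mem_univ _))
  have hc₀ : c i₀ ≠ 0 := by
    rintro h0
    rw [h0, zero_mul, map_zero] at hbig₀
    exact absurd hbig₀ (not_lt.2 zero_le)
  have hstrict : ∀ j ∈ (Finset.univ : Finset (Fin e)) \ {i₀},
      A.valuation (c j * π ^ (j : ℕ)) < A.valuation (c i₀ * π ^ (i₀ : ℕ)) := by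
    intro j hj
    have hji : j ≠ i₀ := by
      simpa using hj
    refine lt_of_le_of_ne (hmax j (Finset.mem_univ _)) ?_
    by_cases hcj : c j = 0
    · rw [hcj, zero_mul, map_zero]
      exact fun h => absurd (h ▸ hbig₀) (not_lt.2 zero_le)
    · rcases lt_or_gt_of_ne hji with h | h
      · exact val_term_ne A E q π e hπ hπ0 hunram hq0 hqπ c hc h hcj hc₀
      · exact (val_term_ne A E q π e hπ hπ0 hunram hq0 hqπ c hc h hc₀ hcj).symm
  have hval := Valuation.map_sum_eq_of_lt A.valuation (Finset.mem_univ i₀) hstrict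
  have hle : A.valuation (∑ i, c i * π ^ (i : ℕ)) ≤ 1 := (A.valuation_le_one_iff _).2 hsum
  rw [hval] at hle
  exact absurd hle (not_le.2 hbig₀)

/-- **Linear independence of `1, π, …, π ^ (e - 1)` over `E`.** -/
theorem coeff_eq_zero_of_sum_eq_zero (hπ : π ∈ A.nonunits) (hπ0 : π ≠ 0)
    (hunram : ∀ a ∈ E, a ∈ A.nonunits → a / q ∈ A) (hq0 : q ≠ 0) (hqπ : q / π ^ e ∈ A)
    (hqE : q ∈ E) (hq : q ∈ A.nonunits)
    (c : Fin e → F) (hc : ∀ i, c i ∈ E) (hsum : ∑ i, c i * π ^ (i : ℕ) = 0) :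
    ∀ i, c i = 0 := by
  intro i
  by_contra hci
  have h1 : ∑ j, ((c i * q)⁻¹ * c j) * π ^ (j : ℕ) ∈ A := by
    have : ∑ j, ((c i * q)⁻¹ * c j) * π ^ (j : ℕ) = (c i * q)⁻¹ * ∑ j, c j * π ^ (j : ℕ) := by
      rw [Finset.mul_sum]
      exact Finset.sum_congr rfl fun j _ => by ring
    rw [this, hsum, mul_zero]
    exact zero_mem A
  have h2 := coeff_mem_of_sum_mem A E q π e hπ hπ0 hunram hq0 hqπ
    (fun j => (c i * q)⁻¹ * c j)
    (fun j => E.mul_mem (E.inv_mem (E.mul_mem (hc i) hqE)) (hc j)) h1 i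
  have h3 : (c i * q)⁻¹ * c i = q⁻¹ := by
    field_simp
  rw [h3] at h2
  have h4 : A.valuation q < 1 := A.mem_nonunits_iff.1 hq
  have h5 : A.valuation q⁻¹ ≤ 1 := (A.valuation_le_one_iff _).2 h2
  have h6 : A.valuation (q * q⁻¹) < 1 := by
    rw [map_mul]
    exact mul_lt_one_of_nonneg_of_lt_one_left zero_le h4 h5
  rw [mul_inv_cancel₀ hq0, map_one] at h6
  exact lt_irrefl _ h6

/-- The coefficients of `∑ i < e, C (c i) X ^ i`. -/
theorem coeff_sum_fin (c : Fin e → F) (n : ℕ) :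
    (∑ i : Fin e, C (c i) * X ^ (i : ℕ)).coeff n = if h : n < e then c ⟨n, h⟩ else 0 := by
  rw [Polynomial.finsetSum_coeff]
  simp only [coeff_C_mul_X_pow]
  split_ifs with h
  · rw [Finset.sum_eq_single (⟨n, h⟩ : Fin e)]
    · simp
    · intro b _ hb
      rw [if_neg]
      intro hnb
      exact hb (Fin.ext hnb.symm)
    · intro h'
      exact absurd (Finset.mem_univ _) h'
  · refine Finset.sum_eq_zero fun i _ => ?_
    rw [if_neg]
    intro hni
    exact h (hni ▸ i.2)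

/-- **The Eisenstein polynomial of `π` over `A ∩ E`.** -/
theorem exists_eisenstein (hπ : π ∈ A.nonunits) (hπ0 : π ≠ 0)
    (hunram : ∀ a ∈ E, a ∈ A.nonunits → a / q ∈ A) (hq0 : q ≠ 0) (hqπ : q / π ^ e ∈ A)
    (hπq : π ^ e / q ∈ A) (hqE : q ∈ E) (he : 0 < e)
    (hbasis : ∃ c : Fin e → F, (∀ i, c i ∈ E) ∧ π ^ e = ∑ i, c i * π ^ (i : ℕ)) :
    ∃ g : F[X], g.Monic ∧ g.natDegree = e ∧ g.eval π = 0 ∧
      (∀ n, g.coeff n ∈ E ∧ g.coeff n ∈ A) ∧ (∀ n < e, g.coeff n / q ∈ A) ∧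
      q / g.coeff 0 ∈ A ∧ g.coeff 0 ≠ 0 := by
  obtain ⟨c, hc, hsum⟩ := hbasis
  have hvπ : A.valuation π < 1 := A.mem_nonunits_iff.1 hπ
  have hπA : π ∈ A := (A.valuation_le_one_iff _).1 hvπ.le
  have hπe : π ^ e ∈ A := pow_mem hπA e
  have hcA : ∀ i, c i ∈ A :=
    coeff_mem_of_sum_mem A E q π e hπ hπ0 hunram hq0 hqπ c hc (hsum ▸ hπe)
  have hsumq : ∑ i, (c i / q) * π ^ (i : ℕ) = π ^ e / q := by
    rw [hsum, Finset.sum_div]
    exact Finset.sum_congr rfl fun i _ => by ring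
  have hcq : ∀ i, c i / q ∈ A :=
    coeff_mem_of_sum_mem A E q π e hπ hπ0 hunram hq0 hqπ (fun i => c i / q)
      (fun i => E.div_mem (hc i) hqE) (hsumq ▸ hπq)
  -- the constant coefficient is a unit times `q`
  have hc0 : ¬ A.valuation (c ⟨0, he⟩ / q) < 1 := by
    intro hlt
    have h1 : A.valuation (π ^ e / q) < 1 := by
      rw [← hsumq]
      refine Valuation.map_sum_lt _ one_ne_zero fun i _ => ?_
      by_cases hi : i = ⟨0, he⟩
      · rw [hi]
        simpa using hlt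
      · have hipos : (i : ℕ) ≠ 0 := fun h => hi (Fin.ext h)
        rw [map_mul, map_pow]
        have h2 : A.valuation (c i / q) ≤ 1 := (A.valuation_le_one_iff _).2 (hcq i)
        have h3 : A.valuation π ^ (i : ℕ) < 1 := pow_lt_one₀ zero_le hvπ hipos
        exact mul_lt_one_of_nonneg_of_lt_one_right h2 zero_le h3
    have h4 : A.valuation (q / π ^ e) ≤ 1 := (A.valuation_le_one_iff _).2 hqπ
    have h5 : A.valuation ((π ^ e / q) * (q / π ^ e)) < 1 := by
      rw [map_mul]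
      exact mul_lt_one_of_nonneg_of_lt_one_left zero_le h1 h4
    have h6 : (π ^ e / q) * (q / π ^ e) = 1 := by
      field_simp
    rw [h6, map_one] at h5
    exact lt_irrefl _ h5
  have hc0ne : c ⟨0, he⟩ ≠ 0 := by
    intro h0
    apply hc0
    rw [h0, zero_div, map_zero]
    exact zero_lt_one
  have hc0unit : q / c ⟨0, he⟩ ∈ A := by
    have h1 : A.valuation (c ⟨0, he⟩ / q) ≤ 1 := (A.valuation_le_one_iff _).2 (hcq _)
    have h2 : A.valuation (c ⟨0, he⟩ / q) = 1 := le_antisymm h1 (not_lt.1 hc0)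
    have h3 : A.valuation (q / c ⟨0, he⟩) = 1 := by
      rw [← inv_div, map_inv₀, h2, inv_one]
    exact (A.valuation_le_one_iff _).1 h3.le
  -- the polynomial
  set p : F[X] := ∑ i : Fin e, C (c i) * X ^ (i : ℕ) with hp
  have hdeg : p.degree < e := Polynomial.degree_sum_fin_lt c
  have hpcoeff : ∀ n, p.coeff n = if h : n < e then c ⟨n, h⟩ else 0 := coeff_sum_fin e c
  have hgcoeff : ∀ n, (X ^ e - p).coeff n = (if n = e then 1 else 0) - p.coeff n := by
    intro n
    rw [coeff_sub, coeff_X_pow]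
  have hglow : ∀ n (h : n < e), (X ^ e - p).coeff n = - c ⟨n, h⟩ := by
    intro n h
    rw [hgcoeff, if_neg h.ne, hpcoeff, dif_pos h, zero_sub]
  refine ⟨X ^ e - p, monic_X_pow_sub hdeg, ?_, ?_, ?_, ?_, ?_, ?_⟩
  · have h1 : (X ^ e - p).degree = ((e : ℕ) : WithBot ℕ) := by
      rw [degree_sub_eq_left_of_degree_lt (by rwa [degree_X_pow]), degree_X_pow]
    exact natDegree_eq_of_degree_eq_some h1
  · rw [eval_sub, eval_pow, eval_X, hp, eval_finsetSum, hsum, sub_eq_zero]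
    exact Finset.sum_congr rfl fun i _ => by
      rw [eval_mul, eval_C, eval_pow, eval_X]
  · intro n
    rw [hgcoeff, hpcoeff]
    have h1E : (if n = e then (1 : F) else 0) ∈ E := by
      split_ifs
      · exact E.one_mem
      · exact E.zero_mem
    have h1A : (if n = e then (1 : F) else 0) ∈ A := by
      split_ifs
      · exact A.one_mem
      · exact A.zero_mem
    have h2E : (if h : n < e then c ⟨n, h⟩ else 0) ∈ E := by
      split_ifs
      · exact hc _
      · exact E.zero_mem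
    have h2A : (if h : n < e then c ⟨n, h⟩ else 0) ∈ A := by
      split_ifs
      · exact hcA _
      · exact A.zero_mem
    exact ⟨E.sub_mem h1E h2E, A.sub_mem h1A h2A⟩
  · intro n hn
    rw [hglow n hn, neg_div]
    exact A.neg_mem _ (hcq _)
  · rw [hglow 0 he, div_neg]
    exact A.neg_mem _ hc0unit
  · rw [hglow 0 he]
    exact neg_ne_zero.2 hc0ne

end Fermat.Agent.S34.H92
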