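/-
Program B' (S34), leaf (BASE) (helper92), part 1: THE COUNTING CORE (Mathlib only).

* `inertiaField_ramificationIdx_eq_one` : the prime below `P` in the inertia field is unramified
  over the base (the analogue for the inertia field of Mathlib's
  `IsDecompositionField.ramificationIdx_eq`).
* number-field forms `nf_inertiaField_ramificationIdx_eq_one`, `nf_ramificationIdx_eq_finrank`.
* `map_le_pow_and_not_le` : `p S ⊆ P ^ e`, `p S ⊄ P ^ (e + 1)` for `e = P.ramificationIdx R`.
-/
import Mathlib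

set_option autoImplicit false

open MulAction Pointwise Ideal NumberField

namespace Fermat.Agent.S34.H92

section general

variable (A K L : Type*) {B : Type*} [Field K] [Field L] [Algebra K L] [CommRing A] [CommRing B]
  [Algebra A B] {p : Ideal A} (P : Ideal B) [P.LiesOver p]
  [Algebra A K] [IsFractionRing A K] [Algebra A L] [IsScalarTower A K L] [Algebra B L]
  [IsScalarTower A B L] [IsFractionRing B L] [MulSemiringAction Gal(L/K) B]
  [SMulDistribClass Gal(L/K) B L]
  (E 𝓞E : Type*) [Field E] [Algebra E L] [IsInertiaField K L P E] [CommRing 𝓞E]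
  [Algebra 𝓞E E] [IsFractionRing 𝓞E E] [Algebra 𝓞E B] [Algebra 𝓞E L] [IsScalarTower 𝓞E E L]
  [IsScalarTower 𝓞E B L] (𝓟E : Ideal 𝓞E) [hE : P.LiesOver 𝓟E]
  [IsGalois K L] [IsDedekindDomain A] [IsDedekindDomain B] [Module.Finite A B]
  [Module.IsTorsionFree A B] [Algebra A 𝓞E] [Module.Finite A 𝓞E] [IsScalarTower A 𝓞E B]
  [IsDedekindDomain 𝓞E] [𝓟E.LiesOver p]
  [FiniteDimensional K L] [Ring.HasFiniteQuotients A] [𝓟E.IsMaximal] [P.IsMaximal]

include K L E P in
/-- Let `E` be the inertia field of `P` in `L/K` and `𝓟E` the prime of `E` below `P`.  Then `𝓟E`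
is unramified over `K`. -/
theorem inertiaField_ramificationIdx_eq_one (hp : p ≠ ⊥) :
    𝓟E.ramificationIdx A = 1 := by
  have inst₁ : Module.Finite 𝓞E B := Module.Finite.right A 𝓞E B
  have inst₂ : Module.IsTorsionFree 𝓞E B := by
    rw [Module.isTorsionFree_iff_faithfulSMul]
    apply Algebra.IsAlgebraic.faithfulSMul_tower_top A
  have inst₃ : Module.IsTorsionFree A 𝓞E := Module.IsTorsionFree.of_faithfulSMul _ _ B
  have inst₄ : IsGaloisGroup Gal(L/K) A B := .of_isFractionRing _ _ _ K L
  have inst₅ : IsGaloisGroup (inertia Gal(L/K) P) 𝓞E B := .of_isFractionRing _ _ _ E L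
  have h𝓟 : 𝓟E ≠ ⊥ := Ideal.ne_bot_of_liesOver_of_ne_bot hp 𝓟E
  have : p.IsMaximal := over_def P p ▸ Ideal.IsMaximal.under A P
  have : Finite (A ⧸ p) := Ring.HasFiniteQuotients.finiteQuotient hp
  have h1 : Nat.card (inertia Gal(L/K) P) = p.ramificationIdxIn B :=
    card_inertia_eq_ramificationIdxIn p P
  have : Ring.HasFiniteQuotients 𝓞E := Ring.HasFiniteQuotients.of_module_finite A 𝓞E
  have : Finite (𝓞E ⧸ 𝓟E) := Ring.HasFiniteQuotients.finiteQuotient h𝓟
  have h2 : Nat.card (inertia (inertia Gal(L/K) P) P) = 𝓟E.ramificationIdxIn B :=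
    card_inertia_eq_ramificationIdxIn 𝓟E P
  have h3 : inertia (inertia Gal(L/K) P) P = ⊤ := by
    ext σ
    simp only [Subgroup.mem_top, iff_true]
    intro x
    exact σ.2 x
  rw [h3, Subgroup.card_top, h1] at h2
  have := ramificationIdx_tower (R := A) 𝓟E P
  rwa [← ramificationIdxIn_eq_ramificationIdx 𝓟E P (inertia Gal(L/K) P), ← h2,
    ramificationIdxIn_eq_ramificationIdx p P Gal(L/K),
    right_eq_mul₀ <| (ramificationIdx_pos P A).ne'] at this

end general

section powers

variable {R S : Type*} [CommRing R] [IsDomain R] [CommRing S] [IsDedekindDomain S] [Algebra R S]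
  [Module.IsTorsionFree R S]

/-- `p S ⊆ P ^ e` and `p S ⊄ P ^ (e + 1)` for `e` the ramification index of `P` over `p`. -/
theorem map_le_pow_and_not_le (p : Ideal R) (P : Ideal S) [hPp : P.IsPrime] [P.LiesOver p]
    (hp : p ≠ ⊥) (hP : P ≠ ⊥) :
    p.map (algebraMap R S) ≤ P ^ (P.ramificationIdx R) ∧
      ¬ p.map (algebraMap R S) ≤ P ^ (P.ramificationIdx R + 1) := by
  have hp0 : p.map (algebraMap R S) ≠ ⊥ := map_ne_bot_of_ne_bot hp
  rw [← ramificationIdx'_eq_ramificationIdx p P hp]
  refine ⟨le_pow_ramificationIdx', ?_⟩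
  have hPirr := (Ideal.prime_of_isPrime hP hPp).irreducible
  rw [IsDedekindDomain.ramificationIdx'_eq_normalizedFactors_count hp0 hPp hP]
  refine mt Ideal.dvd_iff_le.mpr ?_
  rw [UniqueFactorizationMonoid.dvd_iff_normalizedFactors_le_normalizedFactors
      (pow_ne_zero _ hP) hp0, UniqueFactorizationMonoid.normalizedFactors_pow,
    UniqueFactorizationMonoid.normalizedFactors_irreducible hPirr, normalize_eq,
    Multiset.nsmul_singleton, ← Multiset.le_count_iff_replicate_le]
  exact (Nat.lt_succ_self _).not_ge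

end powers

section NF

variable (L : Type) [Field L] [NumberField L] [IsGalois ℚ L] (P : Ideal (𝓞 L)) [P.IsMaximal]

/-- The inertia field of `P` in `L/ℚ`. -/
abbrev inertiaFld : IntermediateField ℚ L :=
  FixedPoints.intermediateField (inertia Gal(L/ℚ) P)

/-- The prime of the inertia field below `P` is unramified over `ℤ`. -/
theorem nf_inertiaField_ramificationIdx_eq_one (hp : P.under ℤ ≠ ⊥) :
    (P.under (𝓞 (inertiaFld L P))).ramificationIdx ℤ = 1 :=
  inertiaField_ramificationIdx_eq_one ℤ ℚ L P (inertiaFld L P) (𝓞 (inertiaFld L P))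
    (P.under (𝓞 (inertiaFld L P))) hp

/-- The ramification index of `P` over `ℤ` is the degree of `L` over the inertia field. -/
theorem nf_ramificationIdx_eq_finrank (hp : P.under ℤ ≠ ⊥) :
    P.ramificationIdx ℤ = Module.finrank (inertiaFld L P) L := by
  rw [IsInertiaField.rank_left ℤ ℚ L P (inertiaFld L P) hp,
    ramificationIdxIn_eq_ramificationIdx (P.under ℤ) P Gal(L/ℚ)]

end NF

end Fermat.Agent.S34.H92
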