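/-
Program B' (S34), leaf (BASE) (helper92), part 2: TRANSLATION between the ideal language of
Mathlib's ramification theory and the valuation-subring language of the project.

`V ≠ ⊤` a valuation subring of the fraction field `K` of a Dedekind domain `R ⊆ V`, `𝔭` its centre
(`S18.H21.centre`), `ϖ` a uniformiser of `V`:
* `mem_centre_pow_iff` : `r ∈ 𝔭 ^ n ↔ r / ϖ ^ n ∈ V`;
* number fields: `under_nfCentre` (`𝔭 ∩ ℤ = (q)`), `natCast_div_pow_mem`
  (`q = unit * ϖ ^ e`, `e` the ramification index of `𝔭` over `ℤ`).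
-/
import Mathlib
import Fermat.Agent.S18.H21.NFDescent
import Fermat.Agent.S18.H21.NFDescentQbar
import Fermat.Agent.S34.H92.Base1

set_option autoImplicit false
set_option linter.unusedSectionVars false

namespace Fermat.Agent.S34.H92

open Fermat.Agent.S18.H21 IsLocalRing NumberField

section Dedekind

variable {R K : Type*} [CommRing R] [IsDedekindDomain R] [Field K] [Algebra R K]
  [IsFractionRing R K]

theorem centre_isMaximal (V : ValuationSubring K) (hR : ∀ r : R, algebraMap R K r ∈ V)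
    (hV : V ≠ ⊤) : (centre V hR).IsMaximal :=
  Ideal.IsPrime.isMaximal inferInstance (centre_ne_bot V hR hV)

theorem exists_eq_div_of_mem (V : ValuationSubring K) (hR : ∀ r : R, algebraMap R K r ∈ V)
    (hV : V ≠ ⊤) (x : K) (hx : x ∈ V) :
    ∃ a s : R, s ∉ centre V hR ∧ x = algebraMap R K a * (algebraMap R K s)⁻¹ := by
  obtain ⟨a, s, hs, h⟩ := (mem_iff_mem_ofField V hR hV x).mp hx
  exact ⟨a, s, hs, h⟩

omit [IsDedekindDomain R] [IsFractionRing R K] in
theorem valuation_eq_one_of_notMem_centre (V : ValuationSubring K)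
    (hR : ∀ r : R, algebraMap R K r ∈ V) (s : R) (hs : s ∉ centre V hR) :
    V.valuation (algebraMap R K s) = 1 := by
  have h1 : algebraMap R K s ∉ V.nonunits := fun h => hs ((mem_centre_iff V hR s).mpr h)
  rw [ValuationSubring.mem_nonunits_iff, not_lt] at h1
  exact le_antisymm ((V.valuation_le_one_iff _).mpr (hR s)) h1

omit [IsDedekindDomain R] [IsFractionRing R K] in
/-- `r ∈ 𝔭 ^ n → r / ϖ ^ n ∈ V`. -/
theorem div_pow_mem_of_mem_centre_pow (V : ValuationSubring K)
    (hR : ∀ r : R, algebraMap R K r ∈ V) (ϖ : K) (hunif : ∀ y ∈ V.nonunits, y / ϖ ∈ V) (n : ℕ)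
    (r : R) (hr : r ∈ (centre V hR) ^ n) : algebraMap R K r / ϖ ^ n ∈ V := by
  induction n generalizing r with
  | zero =>
    rw [pow_zero, div_one]
    exact hR r
  | succ n ih =>
    rw [pow_succ] at hr
    refine Submodule.mul_induction_on hr ?_ ?_
    · intro a ha b hb
      rw [map_mul, pow_succ, mul_div_mul_comm]
      exact V.mul_mem _ _ (ih a ha) (hunif _ ((mem_centre_iff V hR b).1 hb))
    · intro x y hx hy
      rw [map_add, add_div]
      exact V.add_mem _ _ hx hy

/-- `r / ϖ ^ n ∈ V → r ∈ 𝔭 ^ n`. -/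
theorem mem_centre_pow_of_div_pow_mem (V : ValuationSubring K)
    (hR : ∀ r : R, algebraMap R K r ∈ V) (hV : V ≠ ⊤) (ϖ : K) (hϖ : ϖ ∈ V.nonunits)
    (hϖ0 : ϖ ≠ 0) (n : ℕ) (r : R) (h : algebraMap R K r / ϖ ^ n ∈ V) :
    r ∈ (centre V hR) ^ n := by
  rcases Nat.eq_zero_or_pos n with rfl | hn
  · rw [pow_zero, Ideal.one_eq_top]
    exact Submodule.mem_top
  set P := centre V hR with hP
  have hPmax : P.IsMaximal := centre_isMaximal V hR hV
  have hϖV : ϖ ∈ V := (V.valuation_le_one_iff _).1 (V.mem_nonunits_iff.1 hϖ).le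
  obtain ⟨a, s, hs, hϖeq⟩ := exists_eq_div_of_mem V hR hV ϖ hϖV
  obtain ⟨b, t, ht, hbt⟩ := exists_eq_div_of_mem V hR hV _ h
  have hs0 : algebraMap R K s ≠ 0 := by
    intro h0
    have := valuation_eq_one_of_notMem_centre V hR s hs
    rw [h0, map_zero] at this
    exact zero_ne_one this
  have ht0 : algebraMap R K t ≠ 0 := by
    intro h0
    have := valuation_eq_one_of_notMem_centre V hR t ht
    rw [h0, map_zero] at this
    exact zero_ne_one this
  -- `a ∈ P`
  have haP : a ∈ P := by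
    rw [hP, mem_centre_iff, ValuationSubring.mem_nonunits_iff]
    have h1 : algebraMap R K a = ϖ * algebraMap R K s := by
      rw [hϖeq, mul_assoc, inv_mul_cancel₀ hs0, mul_one]
    rw [h1, map_mul, valuation_eq_one_of_notMem_centre V hR s hs, mul_one]
    exact V.mem_nonunits_iff.1 hϖ
  -- `r s^n t = b a^n`
  have hkey : r * (s ^ n * t) = b * a ^ n := by
    apply IsFractionRing.injective R K
    have h1 : algebraMap R K r = algebraMap R K b * (algebraMap R K t)⁻¹ * ϖ ^ n := by
      rw [← hbt, div_mul_cancel₀ _ (pow_ne_zero _ hϖ0)]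
    rw [map_mul, map_mul, map_pow, map_mul, map_pow, h1, hϖeq]
    calc algebraMap R K b * (algebraMap R K t)⁻¹ *
          (algebraMap R K a * (algebraMap R K s)⁻¹) ^ n *
          (algebraMap R K s ^ n * algebraMap R K t)
        = algebraMap R K b * algebraMap R K a ^ n *
          ((algebraMap R K t)⁻¹ * algebraMap R K t) *
          ((algebraMap R K s)⁻¹ * algebraMap R K s) ^ n := by
          rw [mul_pow, mul_pow]; ring
      _ = algebraMap R K b * algebraMap R K a ^ n := by
          rw [inv_mul_cancel₀ ht0, inv_mul_cancel₀ hs0, one_pow, mul_one, mul_one]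
  have hmem : r * (s ^ n * t) ∈ P ^ n := by
    rw [hkey]
    exact Ideal.mul_mem_left _ _ (Ideal.pow_mem_pow haP n)
  have hrad : (P ^ n).radical = P := by
    rw [Ideal.radical_pow P hn.ne', Ideal.IsPrime.radical inferInstance]
  have hprim : (P ^ n).IsPrimary := Ideal.isPrimary_of_isMaximal_radical (by rwa [hrad])
  rcases (Ideal.isPrimary_iff.1 hprim).2 hmem with h1 | h1
  · exact h1
  · exfalso
    rw [hrad] at h1
    rcases (inferInstance : P.IsPrime).mem_or_mem h1 with h2 | h2
    · exact hs ((inferInstance : P.IsPrime).mem_of_pow_mem n h2)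
    · exact ht h2

end Dedekind

section NF

variable {F : Type*} [Field F] [NumberField F] (V : ValuationSubring F)

/-- The prime of `𝓞 F` below the valuation subring `V`. -/
abbrev nfCentre : Ideal (𝓞 F) := centre V (ringOfIntegers_mem V)

omit [NumberField F] in
theorem mem_nfCentre_iff (r : 𝓞 F) : r ∈ nfCentre V ↔ (r : F) ∈ V.nonunits :=
  mem_centre_iff V (ringOfIntegers_mem V) r

/-- `𝔭 ∩ ℤ = (q)`. -/
theorem under_nfCentre (q : ℕ) (hq : q.Prime) (hqV : (q : F) ∈ V.nonunits) :
    (nfCentre V).under ℤ = Ideal.span {(q : ℤ)} := by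
  have hmax : (Ideal.span {(q : ℤ)}).IsMaximal :=
    PrincipalIdealRing.isMaximal_of_irreducible
      (Nat.prime_iff_prime_int.1 hq).irreducible
  have hne : (nfCentre V).under ℤ ≠ ⊤ := Ideal.IsPrime.ne_top inferInstance
  refine (hmax.eq_of_le hne ?_).symm
  rw [Ideal.span_singleton_le_iff_mem, Ideal.under_def, Ideal.mem_comap, mem_nfCentre_iff]
  simpa using hqV

variable {V} in
/-- `q = unit * ϖ ^ e`, `e` the ramification index of the centre over `ℤ`. -/
theorem natCast_div_pow_mem (q : ℕ) (hq : q.Prime) (hqV : (q : F) ∈ V.nonunits) (hV : V ≠ ⊤)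
    (ϖ : F) (hϖ : ϖ ∈ V.nonunits) (hϖ0 : ϖ ≠ 0) (hunif : ∀ y ∈ V.nonunits, y / ϖ ∈ V) :
    (q : F) / ϖ ^ ((nfCentre V).ramificationIdx ℤ) ∈ V ∧
      ϖ ^ ((nfCentre V).ramificationIdx ℤ) / (q : F) ∈ V := by
  set P := nfCentre V with hP
  have hunder := under_nfCentre V q hq hqV
  have hq0 : (q : ℤ) ≠ 0 := by exact_mod_cast hq.ne_zero
  have hp : P.under ℤ ≠ ⊥ := by
    rw [hunder]
    intro h
    rw [Ideal.span_singleton_eq_bot] at h
    exact hq0 h
  have hPne : P ≠ ⊥ := centre_ne_bot V _ hV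
  obtain ⟨h1, h2⟩ := map_le_pow_and_not_le (P.under ℤ) P hp hPne
  rw [hunder, Ideal.map_span, Set.image_singleton, Ideal.span_singleton_le_iff_mem] at h1 h2
  have hcast : algebraMap (𝓞 F) F (algebraMap ℤ (𝓞 F) (q : ℤ)) = (q : F) := by simp
  have h3 := div_pow_mem_of_mem_centre_pow V (ringOfIntegers_mem V) ϖ hunif _ _ h1
  rw [hcast] at h3
  refine ⟨h3, ?_⟩
  -- `q / ϖ ^ e` is not a nonunit
  have h4 : (q : F) / ϖ ^ (P.ramificationIdx ℤ) ∉ V.nonunits := by
    intro h5
    apply h2
    apply mem_centre_pow_of_div_pow_mem V (ringOfIntegers_mem V) hV ϖ hϖ hϖ0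
    rw [hcast, pow_succ, ← div_div]
    exact hunif _ h5
  rw [ValuationSubring.mem_nonunits_iff, not_lt] at h4
  have h6 : V.valuation ((q : F) / ϖ ^ (P.ramificationIdx ℤ)) = 1 :=
    le_antisymm ((V.valuation_le_one_iff _).2 h3) h4
  rw [← V.valuation_le_one_iff, ← inv_div, map_inv₀, h6, inv_one]

end NF

section Galois

variable {L : Type} [Field L] [NumberField L] (V : ValuationSubring L)

/-- Elements of the inertia group of the centre preserve `V` and act trivially on its residue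
field. -/
theorem inertia_apply_mem (hV : V ≠ ⊤) {σ : Gal(L/ℚ)}
    (hσ : σ ∈ Ideal.inertia Gal(L/ℚ) (nfCentre V)) {y : L} (hy : y ∈ V) :
    σ y ∈ V ∧ σ y - y ∈ V.nonunits := by
  obtain ⟨a, s, hs, rfl⟩ := exists_eq_div_of_mem V (ringOfIntegers_mem V) hV y hy
  have ha : σ • a - a ∈ nfCentre V := hσ a
  have hs' : σ • s - s ∈ nfCentre V := hσ s
  have hσs : σ • s ∉ nfCentre V := by
    intro h
    apply hs
    have := Ideal.sub_mem _ h hs'
    simpa using this
  have v1 : V.valuation (algebraMap (𝓞 L) L s) = 1 :=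
    valuation_eq_one_of_notMem_centre V _ s hs
  have v2 : V.valuation (algebraMap (𝓞 L) L (σ • s)) = 1 :=
    valuation_eq_one_of_notMem_centre V _ _ hσs
  have hs0 : algebraMap (𝓞 L) L s ≠ 0 := by
    intro h0
    rw [h0, map_zero] at v1
    exact zero_ne_one v1
  have hσs0 : algebraMap (𝓞 L) L (σ • s) ≠ 0 := by
    intro h0
    rw [h0, map_zero] at v2
    exact zero_ne_one v2
  have e1 : σ (algebraMap (𝓞 L) L a * (algebraMap (𝓞 L) L s)⁻¹) =
      algebraMap (𝓞 L) L (σ • a) * (algebraMap (𝓞 L) L (σ • s))⁻¹ := by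
    rw [map_mul, map_inv₀]
    rfl
  constructor
  · rw [e1, ← V.valuation_le_one_iff, map_mul, map_inv₀, v2, inv_one, mul_one]
    exact (V.valuation_le_one_iff _).2 (ringOfIntegers_mem V _)
  · rw [e1, V.mem_nonunits_iff]
    have e2 : algebraMap (𝓞 L) L (σ • a) * (algebraMap (𝓞 L) L (σ • s))⁻¹ -
        algebraMap (𝓞 L) L a * (algebraMap (𝓞 L) L s)⁻¹ =
        algebraMap (𝓞 L) L ((σ • a - a) * s - a * (σ • s - s)) *
          ((algebraMap (𝓞 L) L s)⁻¹ * (algebraMap (𝓞 L) L (σ • s))⁻¹) := by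
      simp only [map_sub, map_mul]
      field_simp
      ring
    rw [e2, map_mul, map_mul, map_inv₀, map_inv₀, v1, v2, inv_one, mul_one, mul_one]
    exact V.mem_nonunits_iff.1 ((mem_nfCentre_iff V _).1
      (Ideal.sub_mem _ (Ideal.mul_mem_right _ _ ha) (Ideal.mul_mem_left _ _ hs')))

end Galois

end Fermat.Agent.S34.H92
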