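/-
Program B' (S34), leaf (BASE) (helper92), part 4: EQUALITY OF RESIDUE FIELDS.

`V` a valuation subring of `L` with finite residue field, `I` a finite group of automorphisms of
`L` preserving `V` and acting trivially on its residue field, `E₀` a subfield containing the
fixed field of `I`.  Then `V ∩ E₀` and `V` have the same residue field
(`exists_sub_mem_nonunits_of_fixed`).

Proof: for `y ∈ V` the polynomial `∏ σ ∈ I, (X - σ y)` has coefficients in `V ∩ E₀` and reduces
to `(X - ȳ) ^ |I|`; the residue field of `V ∩ E₀` is finite, hence perfect, so the minimal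
polynomial of `ȳ` over it is separable and divides `(X - ȳ) ^ |I|`: it is `X - ȳ`.
-/
import Mathlib
import Fermat.Agent.S18.H21.NFDescentQbar

set_option autoImplicit false

namespace Fermat.Agent.S34.H92

open Fermat.Agent.S18.H21 IsLocalRing Polynomial

variable {k L : Type*} [Field k] [Field L] [Algebra k L] (V : ValuationSubring L)
  (I : Subgroup (L ≃ₐ[k] L)) [Finite I] (E₀ : IntermediateField k L)

theorem exists_sub_mem_nonunits_of_fixed [Finite (IsLocalRing.ResidueField V)]
    (hE : ∀ x : L, (∀ σ ∈ I, σ x = x) → x ∈ E₀)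
    (hI : ∀ σ ∈ I, ∀ y ∈ V, σ y ∈ V ∧ σ y - y ∈ V.nonunits)
    (y : L) (hy : y ∈ V) : ∃ a ∈ E₀, a ∈ V ∧ y - a ∈ V.nonunits := by
  classical
  have : Fintype I := Fintype.ofFinite I
  set φ : E₀ →+* L := algebraMap E₀ L with hφ
  set ι : descend V φ →+* V := descendHom V φ with hι
  -- the polynomial over `V`
  set fV : Polynomial V := ∏ σ : I, (X - C (⟨σ.1 y, (hI σ.1 σ.2 y hy).1⟩ : V)) with hfV
  -- its coefficients lie in `V ∩ E₀`
  have hrange : ∀ n, fV.coeff n ∈ Set.range ι := by
    intro n
    have hfix : ∀ τ ∈ I, τ ((fV.coeff n : V) : L) = ((fV.coeff n : V) : L) := by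
      intro τ hτ
      have h1 : (fV.map V.subtype).map (τ.toAlgHom.toRingHom) = fV.map V.subtype := by
        simp only [hfV, Polynomial.map_prod, Polynomial.map_sub, Polynomial.map_X,
          Polynomial.map_C]
        exact Fintype.prod_equiv (Equiv.mulLeft (⟨τ, hτ⟩ : I)) _ _ (fun σ => rfl)
      have h2 := congrArg (fun g => g.coeff n) h1
      simpa [Polynomial.coeff_map] using h2
    have hmem : ((fV.coeff n : V) : L) ∈ E₀ := hE _ hfix
    exact ⟨⟨⟨_, hmem⟩, (fV.coeff n).2⟩, Subtype.ext rfl⟩
  obtain ⟨fE, hfE⟩ : ∃ fE : Polynomial (descend V φ), fE.map ι = fV :=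
    (Polynomial.lifts_iff_coeff_lifts _).2 hrange
  -- residue fields
  set κ : ResidueField (descend V φ) →+* ResidueField V := ResidueField.map ι with hκ
  let _ : Algebra (ResidueField (descend V φ)) (ResidueField V) := κ.toAlgebra
  have halg : algebraMap (ResidueField (descend V φ)) (ResidueField V) = κ := rfl
  have hκres : κ.comp (residue (descend V φ)) = (residue V).comp ι := by
    ext x
    exact ResidueField.map_residue ι x
  set ybar : ResidueField V := residue V ⟨y, hy⟩ with hybar
  set fbar : Polynomial (ResidueField (descend V φ)) := fE.map (residue (descend V φ)) with hfbar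
  have hcard : Fintype.card I ≠ 0 := Fintype.card_ne_zero
  have hmap : fbar.map κ = (X - C ybar) ^ Fintype.card I := by
    rw [hfbar, Polynomial.map_map, hκres, ← Polynomial.map_map, hfE, hfV, Polynomial.map_prod]
    rw [Finset.prod_congr rfl (g := fun _ => X - C ybar), Finset.prod_const, Finset.card_univ]
    intro σ _
    rw [Polynomial.map_sub, Polynomial.map_X, Polynomial.map_C]
    congr 2
    rw [hybar, ← sub_eq_zero, ← map_sub, residue_eq_zero_iff]
    exact (ValuationSubring.mem_nonunits_iff_exists_mem_maximalIdeal.1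
      (hI σ.1 σ.2 y hy).2).2
  have hfbar0 : fbar ≠ 0 := by
    intro h0
    rw [h0, Polynomial.map_zero] at hmap
    exact pow_ne_zero _ (X_sub_C_ne_zero ybar) hmap.symm
  have hroot : Polynomial.aeval ybar fbar = 0 := by
    rw [Polynomial.aeval_def, Polynomial.eval₂_eq_eval_map, halg, hmap, eval_pow, eval_sub,
      eval_X, eval_C, sub_self, zero_pow hcard]
  have hint : IsIntegral (ResidueField (descend V φ)) ybar :=
    isAlgebraic_iff_isIntegral.1 ⟨fbar, hfbar0, hroot⟩
  have hdvd : minpoly (ResidueField (descend V φ)) ybar ∣ fbar := minpoly.dvd _ ybar hroot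
  have hfin : Finite (ResidueField (descend V φ)) := Finite.of_injective κ κ.injective
  have hsep : (minpoly (ResidueField (descend V φ)) ybar).Separable :=
    PerfectField.separable_of_irreducible (minpoly.irreducible hint)
  have hsq : Squarefree ((minpoly (ResidueField (descend V φ)) ybar).map κ) :=
    (hsep.map).squarefree
  have hdvd2 : (minpoly (ResidueField (descend V φ)) ybar).map κ ∣
      (X - C ybar) ^ Fintype.card I := by
    rw [← hmap]
    exact Polynomial.map_dvd κ hdvd
  have hdvd3 : (minpoly (ResidueField (descend V φ)) ybar).map κ ∣ X - C ybar :=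
    (hsq.dvd_pow_iff_dvd hcard).1 hdvd2
  have hdeg : (minpoly (ResidueField (descend V φ)) ybar).natDegree ≤ 1 := by
    have h1 := Polynomial.natDegree_le_of_dvd hdvd3 (X_sub_C_ne_zero ybar)
    rwa [Polynomial.natDegree_map, Polynomial.natDegree_X_sub_C] at h1
  have hdeg1 : (minpoly (ResidueField (descend V φ)) ybar).degree = 1 := by
    have h2 : 0 < (minpoly (ResidueField (descend V φ)) ybar).natDegree :=
      minpoly.natDegree_pos hint
    rw [Polynomial.degree_eq_natDegree (minpoly.ne_zero hint)]
    have h3 : (minpoly (ResidueField (descend V φ)) ybar).natDegree = 1 := le_antisymm hdeg h2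
    rw [h3]
    rfl
  obtain ⟨cbar, hcbar⟩ := minpoly.mem_range_of_degree_eq_one _ ybar hdeg1
  obtain ⟨c, rfl⟩ := residue_surjective cbar
  refine ⟨φ c.1, ?_, c.2, ?_⟩
  · exact (c.1 : E₀).2
  · have h1 : residue V (⟨y, hy⟩ - ι c) = 0 := by
      rw [map_sub, ← hybar, ← hcbar, halg, hκ, ResidueField.map_residue, sub_self]
    rw [residue_eq_zero_iff] at h1
    exact ValuationSubring.mem_nonunits_iff_exists_mem_maximalIdeal.2
      ⟨V.sub_mem hy (ι c).2, h1⟩

end Fermat.Agent.S34.H92
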