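/-
Program B' (S34), leaf (BASE) (helper92), part 5: the package for a Galois number field `L`
with a valuation subring `V` over the prime `q` (`nf_package`):
the inertia field `E₀` of the centre of `V` is fixed by the inertia group, `q` is a uniformiser
of `V ∩ E₀`, `V ∩ E₀` and `V` have the same residue field, and a uniformiser `π` of `V`
satisfies `π ^ [L : E₀] = q * unit`.
-/
import Mathlib
import Fermat.Prelude.Def_FLTPrelim_Ramification
import Fermat.Agent.S18.H21.ComapDVR
import Fermat.Agent.S18.H21.NFDescentQbar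
import Fermat.Agent.S34.H92.Base1
import Fermat.Agent.S34.H92.Base2
import Fermat.Agent.S34.H92.Base4

set_option autoImplicit false

namespace Fermat.Agent.S34.H92

open Fermat.Agent.S18.H21 NumberField

/-- A uniformiser of a discrete valuation subring, as an element of the field. -/
theorem exists_uniformiser {F : Type*} [Field F] (V : ValuationSubring F)
    [IsDiscreteValuationRing V] :
    ∃ π : F, π ∈ V.nonunits ∧ π ≠ 0 ∧ ∀ y ∈ V.nonunits, y / π ∈ V := by
  obtain ⟨ϖ, hϖ⟩ := IsDiscreteValuationRing.exists_irreducible V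
  have hϖ0 : (ϖ : F) ≠ 0 := fun h => hϖ.ne_zero (Subtype.ext h)
  refine ⟨(ϖ : F), ?_, hϖ0, ?_⟩
  · rw [ValuationSubring.coe_mem_nonunits_iff, IsLocalRing.mem_maximalIdeal]
    exact hϖ.not_isUnit
  · intro y hy
    obtain ⟨hyV, hym⟩ := ValuationSubring.mem_nonunits_iff_exists_mem_maximalIdeal.1 hy
    rw [hϖ.maximalIdeal_eq, Ideal.mem_span_singleton] at hym
    obtain ⟨z, hz⟩ := hym
    have h1 : y = (ϖ : F) * (z : F) := congrArg Subtype.val hz
    rw [h1, mul_div_cancel_left₀ _ hϖ0]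
    exact z.2

section NFtower

variable {L : Type} [Field L] [NumberField L] (V : ValuationSubring L)

/-- The centre of `V ∩ E₀` is the prime below the centre of `V`. -/
theorem nfCentre_descend (E₀ : IntermediateField ℚ L) :
    nfCentre (descend V (algebraMap ↥E₀ L)) = (nfCentre V).under (𝓞 ↥E₀) := by
  ext r
  rw [mem_nfCentre_iff, Ideal.under_def, Ideal.mem_comap, mem_nfCentre_iff, mem_nonunits_descend]
  rfl

theorem mem_inertiaFld_iff (P : Ideal (𝓞 L)) (x : L) :
    x ∈ inertiaFld L P ↔ ∀ σ ∈ Ideal.inertia Gal(L/ℚ) P, σ x = x := by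
  constructor
  · intro h σ hσ
    exact h ⟨σ, hσ⟩
  · intro h σ
    exact h σ.1 σ.2

variable [IsGalois ℚ L]

/-- **The package at the level of a Galois number field.** -/
theorem nf_package (q : ℕ) (hq : q.Prime) (hqV : (q : L) ∈ V.nonunits) :
    (∀ a ∈ inertiaFld L (nfCentre V), a ∈ V.nonunits → a / (q : L) ∈ V) ∧
    (∀ y ∈ V, ∃ a ∈ inertiaFld L (nfCentre V), a ∈ V ∧ y - a ∈ V.nonunits) ∧
    ∃ π : L, π ∈ V.nonunits ∧ π ≠ 0 ∧ (∀ y ∈ V.nonunits, y / π ∈ V) ∧
      (q : L) / π ^ (Module.finrank (inertiaFld L (nfCentre V)) L) ∈ V ∧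
      π ^ (Module.finrank (inertiaFld L (nfCentre V)) L) / (q : L) ∈ V := by
  have hq0 : (q : L) ≠ 0 := Nat.cast_ne_zero.2 hq.ne_zero
  have hVtop : V ≠ ⊤ := by
    intro h
    have h1 : ((q : L))⁻¹ ∈ V := by rw [h]; trivial
    exact (mem_nonunits_iff_inv_not_mem V _ hq0).1 hqV h1
  have hDVR : IsDiscreteValuationRing V := isDiscreteValuationRing_of_numberField V hVtop
  have hfin : Finite (IsLocalRing.ResidueField V) := finite_residueField_of_numberField V hVtop
  have hmax : (nfCentre V).IsMaximal := centre_isMaximal V _ hVtop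
  have hunder : (nfCentre V).under ℤ ≠ ⊥ := by
    rw [under_nfCentre V q hq hqV]
    intro h
    rw [Ideal.span_singleton_eq_bot] at h
    exact hq.ne_zero (by exact_mod_cast h)
  set E₀ := inertiaFld L (nfCentre V) with hE₀
  refine ⟨?_, ?_, ?_⟩
  · -- `q` is a uniformiser of `V ∩ E₀`
    set VE := descend V (algebraMap ↥E₀ L) with hVE
    have hqVL : V.LiesOverPrime q := hqV
    have hVEtop : VE ≠ ⊤ := descend_ne_top V _ hqVL hq.ne_zero
    have hDVRE : IsDiscreteValuationRing VE := isDiscreteValuationRing_descend V _ hqVL hq.ne_zero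
    obtain ⟨ϖ, hϖ, hϖ0, hunif⟩ := exists_uniformiser VE
    have hqVE : (q : ↥E₀) ∈ VE.nonunits := natCast_mem_nonunits_descend V _ hqVL
    have h1 := natCast_div_pow_mem q hq hqVE hVEtop ϖ hϖ hϖ0 hunif
    have hidx : (nfCentre VE).ramificationIdx ℤ = 1 := by
      rw [hVE, nfCentre_descend]
      exact nf_inertiaField_ramificationIdx_eq_one L (nfCentre V) hunder
    rw [hidx, pow_one] at h1
    intro a ha hanon
    have h2 : (⟨a, ha⟩ : ↥E₀) ∈ VE.nonunits := (mem_nonunits_descend V _ _).2 hanon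
    have h3 : (⟨a, ha⟩ : ↥E₀) / (q : ↥E₀) ∈ VE := by
      have h4 : (⟨a, ha⟩ : ↥E₀) / (q : ↥E₀) = ((⟨a, ha⟩ : ↥E₀) / ϖ) * (ϖ / (q : ↥E₀)) := by
        field_simp
      rw [h4]
      exact VE.mul_mem _ _ (hunif _ h2) h1.2
    have h5 := (mem_descend V (algebraMap ↥E₀ L) _).1 h3
    rwa [map_div₀, map_natCast] at h5
  · -- residue fields
    exact exists_sub_mem_nonunits_of_fixed V (Ideal.inertia Gal(L/ℚ) (nfCentre V)) E₀
      (fun x hx => (mem_inertiaFld_iff (nfCentre V) x).2 hx)
      (fun σ hσ y hy => inertia_apply_mem V hVtop hσ hy)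
  · obtain ⟨π, hπ, hπ0, hunif⟩ := exists_uniformiser V
    have h1 := natCast_div_pow_mem q hq hqV hVtop π hπ hπ0 hunif
    rw [nf_ramificationIdx_eq_finrank L (nfCentre V) hunder] at h1
    exact ⟨π, hπ, hπ0, hunif, h1.1, h1.2⟩

end NFtower

end Fermat.Agent.S34.H92
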