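/-
Program B' (S34), leaf (BASE) (helper92), FINAL: the arithmetic base package in `ℚ̄`.

`inertiaBase_exists` : for `A ∣ q` and `K ⊆ ℚ̄` finite Galois over `ℚ` there are `E`, `π`, `e`, `g`
with `InertiaBase A q K E π e g`, `π ≠ 0` and `g.coeff 0 ≠ 0`;
`inertiaBaseStatement : InertiaBaseStatement`.
-/
import Mathlib
import Fermat.Prelude.Def_FLTPrelim_Ramification
import Fermat.Agent.S05.H63.Inertia
import Fermat.Agent.S18.H21.ComapDVR
import Fermat.Agent.S18.H21.NFDescentQbar
import Fermat.Agent.S34.H92.BaseDefs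
import Fermat.Agent.S34.H92.Base3
import Fermat.Agent.S34.H92.Base5

set_option autoImplicit false

noncomputable section

namespace Fermat.Agent.S34.H92

open Fermat.Agent.S18.H21 NumberField

local notation "Qb" => AlgebraicClosure ℚ

attribute [local instance] Fermat.Agent.S18.H21.numberField_of_finiteDimensional

variable (A : ValuationSubring Qb) (K : IntermediateField ℚ Qb) [FiniteDimensional ℚ K]

/-- `A ∩ K` as a valuation subring of `K`. -/
abbrev valK : ValuationSubring ↥K := descend A (algebraMap ↥K Qb)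

/-- The inertia field of `A ∩ K`, as a subfield of `ℚ̄`. -/
def inertiaField : IntermediateField ℚ Qb :=
  Subfield.toIntermediateField
    ((inertiaFld ↥K (nfCentre (valK A K))).toSubfield.map (algebraMap ↥K Qb))
    (fun r => by
      rw [Subfield.mem_map]
      exact ⟨(r : ↥K), SubfieldClass.ratCast_mem (inertiaFld ↥K (nfCentre (valK A K))).toSubfield r,
        by simp⟩)

theorem mem_inertiaField_iff (a : Qb) :
    a ∈ inertiaField A K ↔
      ∃ a₀ : ↥K, a₀ ∈ inertiaFld ↥K (nfCentre (valK A K)) ∧ algebraMap ↥K Qb a₀ = a :=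
  Iff.rfl

theorem inertiaField_le : inertiaField A K ≤ K := by
  intro a ha
  obtain ⟨a₀, -, rfl⟩ := (mem_inertiaField_iff A K a).1 ha
  exact a₀.2

theorem finiteDimensional_inertiaField : FiniteDimensional ℚ (inertiaField A K) :=
  FiniteDimensional.of_injective (IntermediateField.inclusion (inertiaField_le A K)).toLinearMap
    (IntermediateField.inclusion_injective (inertiaField_le A K))

/-- **(F1)** the inertia group of `A` fixes the inertia field pointwise. -/
theorem apply_eq_of_mem_inertiaField [Normal ℚ K] {τ : Qb ≃ₐ[ℚ] Qb}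
    (hτ : τ ∈ A.inertiaSubgroupIn ℚ) {a : Qb} (ha : a ∈ inertiaField A K) : τ a = a := by
  obtain ⟨a₀, ha₀, rfl⟩ := (mem_inertiaField_iff A K a).1 ha
  have hσ : τ.restrictNormal ↥K ∈ Ideal.inertia Gal(↥K/ℚ) (nfCentre (valK A K)) := by
    intro x
    show _ ∈ nfCentre (valK A K)
    rw [mem_nfCentre_iff, mem_nonunits_descend]
    have hx : algebraMap ↥K Qb (algebraMap (𝓞 ↥K) ↥K x) ∈ A :=
      (mem_descend A _ _).1 (ringOfIntegers_mem (valK A K) x)
    have h1 := Fermat.Agent.S05.H63.apply_sub_mem_nonunits_of_mem_inertiaSubgroupIn hτ hx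
    have h2 : algebraMap ↥K Qb (algebraMap (𝓞 ↥K) ↥K (τ.restrictNormal ↥K • x - x)) =
        τ (algebraMap ↥K Qb (algebraMap (𝓞 ↥K) ↥K x)) -
          algebraMap ↥K Qb (algebraMap (𝓞 ↥K) ↥K x) := by
      rw [map_sub, map_sub, ← AlgEquiv.restrictNormal_commutes]
      rfl
    rw [h2]
    exact h1
  have h3 := (mem_inertiaFld_iff (nfCentre (valK A K)) a₀).1 ha₀ _ hσ
  have h4 := AlgEquiv.restrictNormal_commutes τ ↥K a₀
  rw [h3] at h4
  exact h4.symm

/-- **Leaf (BASE)**, with the inertia field explicit and two nonvanishing complements. -/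
theorem inertiaBase_exists (q : ℕ) (hq : q.Prime) (hA : A.LiesOverPrime q) [Normal ℚ K] :
    ∃ (π : Qb) (e : ℕ) (g : Polynomial Qb),
      InertiaBase A q K (inertiaField A K) π e g ∧ π ≠ 0 ∧ g.coeff 0 ≠ 0 := by
  have hgal : IsGalois ℚ ↥K := ⟨⟩
  have hqV : (q : ↥K) ∈ (valK A K).nonunits := natCast_mem_nonunits_descend A _ hA
  obtain ⟨hunram₀, hres₀, π₀, hπ₀, hπ₀0, hunif₀, hqπ₀, hπq₀⟩ := nf_package (valK A K) q hq hqV
  set E₀ := inertiaFld ↥K (nfCentre (valK A K)) with hE₀
  set e := Module.finrank ↥E₀ ↥K with he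
  set π : Qb := algebraMap ↥K Qb π₀ with hπdef
  have hq0 : (q : Qb) ≠ 0 := Nat.cast_ne_zero.2 hq.ne_zero
  have hπ : π ∈ A.nonunits := (mem_nonunits_descend A _ π₀).1 hπ₀
  have hπ0 : π ≠ 0 := (map_ne_zero _).2 hπ₀0
  have hπK : π ∈ K := π₀.2
  -- `q` is a uniformiser of `A ∩ E`
  have hunram : ∀ a ∈ inertiaField A K, a ∈ A.nonunits → a / (q : Qb) ∈ A := by
    intro a ha hanon
    obtain ⟨a₀, ha₀, rfl⟩ := (mem_inertiaField_iff A K a).1 ha
    have h1 := hunram₀ a₀ ha₀ ((mem_nonunits_descend A _ a₀).2 hanon)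
    have h2 := (mem_descend A _ _).1 h1
    rwa [map_div₀, map_natCast] at h2
  have hqπ : (q : Qb) / π ^ e ∈ A := by
    have h2 := (mem_descend A _ _).1 hqπ₀
    rwa [map_div₀, map_natCast, map_pow] at h2
  have hπq : π ^ e / (q : Qb) ∈ A := by
    have h2 := (mem_descend A _ _).1 hπq₀
    rwa [map_div₀, map_natCast, map_pow] at h2
  have hqE : (q : Qb) ∈ (inertiaField A K).toSubfield := natCast_mem _ q
  have hunram' : ∀ a ∈ (inertiaField A K).toSubfield, a ∈ A.nonunits → a / (q : Qb) ∈ A :=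
    hunram
  -- integrality and independence of the coordinates
  have hintegral : ∀ c : Fin e → Qb, (∀ i, c i ∈ inertiaField A K) →
      (∑ i, c i * π ^ (i : ℕ)) ∈ A → ∀ i, c i ∈ A :=
    fun c hc hsum => coeff_mem_of_sum_mem A (inertiaField A K).toSubfield (q : Qb) π e hπ hπ0
      hunram' hq0 hqπ c hc hsum
  have hindep : ∀ c : Fin e → Qb, (∀ i, c i ∈ inertiaField A K) →
      (∑ i, c i * π ^ (i : ℕ)) = 0 → ∀ i, c i = 0 :=
    fun c hc hsum => coeff_eq_zero_of_sum_eq_zero A (inertiaField A K).toSubfield (q : Qb) π e hπ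
      hπ0 hunram' hq0 hqπ hqE hA c hc hsum
  -- the basis
  have hli : LinearIndependent ↥E₀ (fun i : Fin e => π₀ ^ (i : ℕ)) := by
    rw [Fintype.linearIndependent_iff]
    intro c hc i
    have h1 : ∑ j, (algebraMap ↥K Qb ((c j : ↥E₀) : ↥K)) * π ^ (j : ℕ) = 0 := by
      have h2 := congrArg (algebraMap ↥K Qb) hc
      rw [map_sum, map_zero] at h2
      rw [← h2]
      refine Finset.sum_congr rfl fun j _ => ?_
      rw [hπdef, ← map_pow, ← map_mul]
      rfl
    have h3 := hindep (fun j => algebraMap ↥K Qb ((c j : ↥E₀) : ↥K))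
      (fun j => (mem_inertiaField_iff A K _).2 ⟨_, (c j).2, rfl⟩) h1 i
    exact Subtype.ext ((map_eq_zero (algebraMap ↥K Qb)).1 h3)
  have hcard : Fintype.card (Fin e) = Module.finrank ↥E₀ ↥K := by
    rw [Fintype.card_fin]
  have hepos : 0 < e := Module.finrank_pos
  have hne : Nonempty (Fin e) := ⟨⟨0, hepos⟩⟩
  have hbasis : ∀ y ∈ K, ∃ c : Fin e → Qb, (∀ i, c i ∈ inertiaField A K) ∧
      y = ∑ i, c i * π ^ (i : ℕ) := by
    intro y hy
    set B := basisOfLinearIndependentOfCardEqFinrank hli hcard with hB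
    refine ⟨fun i => algebraMap ↥K Qb ((B.repr ⟨y, hy⟩ i : ↥E₀) : ↥K),
      fun i => (mem_inertiaField_iff A K _).2 ⟨_, (B.repr ⟨y, hy⟩ i).2, rfl⟩, ?_⟩
    have h1 := B.sum_repr ⟨y, hy⟩
    have h2 := congrArg (algebraMap ↥K Qb) h1
    rw [map_sum] at h2
    have h3 : algebraMap ↥K Qb ⟨y, hy⟩ = y := rfl
    rw [h3] at h2
    refine h2.symm.trans (Finset.sum_congr rfl fun j _ => ?_)
    rw [hB, coe_basisOfLinearIndependentOfCardEqFinrank, hπdef, ← map_pow, ← map_mul]
    rfl
  -- the Eisenstein polynomial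
  obtain ⟨g, hgm, hgd, hgr, hgc, hgl, hg0, hg0ne⟩ :=
    exists_eisenstein A (inertiaField A K).toSubfield (q : Qb) π e hπ hπ0 hunram' hq0 hqπ hπq
      hqE hepos (hbasis _ (pow_mem hπK e))
  refine ⟨π, e, g, ?_, hπ0, hg0ne⟩
  exact
    { le := inertiaField_le A K
      fin := finiteDimensional_inertiaField A K
      fixed := fun τ hτ a ha => apply_eq_of_mem_inertiaField A K hτ ha
      unram := hunram
      residue := by
        intro y hy hyA
        obtain ⟨a₀, ha₀, ha₀V, hsub⟩ := hres₀ ⟨y, hy⟩ hyA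
        refine ⟨algebraMap ↥K Qb a₀, (mem_inertiaField_iff A K _).2 ⟨a₀, ha₀, rfl⟩, ha₀V, ?_⟩
        have h1 := (mem_nonunits_descend A _ _).1 hsub
        rwa [map_sub] at h1
      π_mem := hπK
      π_nonunit := hπ
      π_unif := by
        intro y hy hynon
        have h1 := hunif₀ ⟨y, hy⟩ ((mem_nonunits_descend A _ _).2 hynon)
        have h2 := (mem_descend A _ _).1 h1
        rwa [map_div₀] at h2
      e_pos := hepos
      pow_div := hπq
      div_pow := hqπ
      basis := hbasis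
      integral := hintegral
      indep := hindep
      g_monic := hgm
      g_deg := hgd
      g_root := hgr
      g_coeff := hgc
      g_low := hgl
      g_zero := hg0 }

/-- **Leaf (BASE)**: the arithmetic base package exists for every finite Galois `K`. -/
theorem inertiaBaseStatement : InertiaBaseStatement := by
  intro A q hq hA K _ _
  obtain ⟨π, e, g, h, -, -⟩ := inertiaBase_exists A K q hq hA
  exact ⟨inertiaField A K, π, e, g, h⟩

end Fermat.Agent.S34.H92
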