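/-
Program B' (S34), leaf (BASE) (helper92): the ARITHMETIC BASE of the ramified base change.
STATEMENT file (the proof is `Fermat.Agent.S34.H92.inertiaBaseStatement` in `BaseFinal.lean`).

`A` a valuation subring of `ℚ̄` over the prime `q`, `K ⊆ ℚ̄` a finite Galois extension of `ℚ`
(large enough for the function `u` under study).  Then there are a subfield `E ⊆ K` (the inertia
field of `A ∩ K`), a uniformiser `π` of `A ∩ K`, `e = [K : E]` and an Eisenstein polynomial `g`
of `π` over `A ∩ E` such that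

* `fixed`   : the inertia group of `A` fixes `E` pointwise (so it acts trivially on every model
              defined over `E`);
* `unram`   : `q` is a uniformiser of `A ∩ E` (the base `A ∩ E` is UNRAMIFIED);
* `residue` : `A ∩ E` and `A ∩ K` have the same residue field;
* `π_*`     : `π` is a uniformiser of `A ∩ K`, and `π ^ e = q * unit`;
* `basis`, `integral`, `indep` : `1, π, …, π ^ (e - 1)` is an `E`-basis of `K` and an
              `(A ∩ E)`-basis of `A ∩ K`, i.e. `A ∩ K = (A ∩ E)[π]` is free of rank `e`;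
* `g_*`     : `g` is monic of degree `e` with coefficients in `A ∩ E`, `g(π) = 0`, the lower
              coefficients are divisible by `q` and the constant coefficient is `q * unit`.
-/
import Mathlib
import Fermat.Prelude.Def_FLTPrelim_Ramification

set_option autoImplicit false

noncomputable section

namespace Fermat.Agent.S34.H92

local notation "Qb" => AlgebraicClosure ℚ

/-- The arithmetic base package at `A ∣ q` for the finite Galois extension `K` of `ℚ`. -/
structure InertiaBase (A : ValuationSubring Qb) (q : ℕ) (K E : IntermediateField ℚ Qb) (π : Qb)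
    (e : ℕ) (g : Polynomial Qb) : Prop where
  /-- `E ⊆ K` -/
  le : E ≤ K
  /-- `E` is a number field -/
  fin : FiniteDimensional ℚ E
  /-- the inertia group of `A` fixes `E` pointwise -/
  fixed : ∀ τ ∈ A.inertiaSubgroupIn ℚ, ∀ a ∈ E, τ a = a
  /-- `q` is a uniformiser of `A ∩ E` -/
  unram : ∀ a ∈ E, a ∈ A.nonunits → a / (q : Qb) ∈ A
  /-- `A ∩ E` and `A ∩ K` have the same residue field -/
  residue : ∀ y ∈ K, y ∈ A → ∃ a ∈ E, a ∈ A ∧ y - a ∈ A.nonunits
  /-- `π ∈ K` -/
  π_mem : π ∈ K
  /-- `π` is a nonunit of `A` -/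
  π_nonunit : π ∈ A.nonunits
  /-- `π` is a uniformiser of `A ∩ K` -/
  π_unif : ∀ y ∈ K, y ∈ A.nonunits → y / π ∈ A
  /-- `e` is positive -/
  e_pos : 0 < e
  /-- `π ^ e / q` is integral -/
  pow_div : π ^ e / (q : Qb) ∈ A
  /-- `q / π ^ e` is integral: `π ^ e = q * unit` -/
  div_pow : (q : Qb) / π ^ e ∈ A
  /-- `1, π, …, π ^ (e - 1)` span `K` over `E` -/
  basis : ∀ y ∈ K, ∃ c : Fin e → Qb, (∀ i, c i ∈ E) ∧ y = ∑ i, c i * π ^ (i : ℕ)
  /-- the coordinates of an integral element are integral: `A ∩ K = (A ∩ E)[π]` -/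
  integral : ∀ c : Fin e → Qb, (∀ i, c i ∈ E) → (∑ i, c i * π ^ (i : ℕ)) ∈ A → ∀ i, c i ∈ A
  /-- `1, π, …, π ^ (e - 1)` are linearly independent over `E` -/
  indep : ∀ c : Fin e → Qb, (∀ i, c i ∈ E) → (∑ i, c i * π ^ (i : ℕ)) = 0 → ∀ i, c i = 0
  /-- `g` is monic -/
  g_monic : g.Monic
  /-- `g` has degree `e` -/
  g_deg : g.natDegree = e
  /-- `π` is a root of `g` -/
  g_root : g.eval π = 0
  /-- the coefficients of `g` lie in `A ∩ E` -/
  g_coeff : ∀ n, g.coeff n ∈ E ∧ g.coeff n ∈ A
  /-- the lower coefficients of `g` are divisible by `q` -/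
  g_low : ∀ n < e, g.coeff n / (q : Qb) ∈ A
  /-- the constant coefficient of `g` is `q * unit` -/
  g_zero : (q : Qb) / g.coeff 0 ∈ A

/-- **Leaf (BASE)**: the arithmetic base package exists for every finite Galois `K`. -/
def InertiaBaseStatement : Prop :=
  ∀ (A : ValuationSubring Qb) (q : ℕ), q.Prime → A.LiesOverPrime q →
    ∀ (K : IntermediateField ℚ Qb) [FiniteDimensional ℚ K] [Normal ℚ K],
      ∃ (E : IntermediateField ℚ Qb) (π : Qb) (e : ℕ) (g : Polynomial Qb),
        InertiaBase A q K E π e g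

end Fermat.Agent.S34.H92
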