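/-
Program B' (S34), leaf (BASE) (helper92): CONSUMER-SHAPE ADAPTERS of `InertiaBase`.

`B₀ := ↥(A.comap (algebraMap E ℚ̄))` is the unramified discrete valuation ring `A ∩ E`,
`A₀″ := ↥(A.comap (algebraMap K ℚ̄))` the ramified one `A ∩ K`; `comapVal A E : B₀ →+* ℚ̄`.

* `InertiaBase.exists_lift`       : the Eisenstein polynomial as `g₀ : B₀[X]` (monic, degree `e`,
                                    `q ∣` lower coefficients, constant coefficient `q * unit`);
* `InertiaBase.derivative_eval_ne_zero` : `g′(π) ≠ 0`;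
* `InertiaBase.exists_poly`       : `A ∩ K = B₀[π]`;
* `InertiaBase.exists_mul_eq_pow` : `g′(π) * y₀(π) = q ^ m` with `y₀ ∈ B₀[X]` (the hypothesis
                                    `hD` of `H46.crossing_glue`);
* `InertiaBase.irreducible_natCast` : `q` is a uniformiser of `B₀`;
* `InertiaBase.exists_unit_pow`   : `π₀ ∈ A₀″` irreducible and `q = π₀ ^ e * ε`, `ε` a unit;
* `InertiaBase.apply_div_mem`     : `τ π / π` is a unit of `A` for `τ` in the inertia group.
-/
import Mathlib
import Fermat.Prelude.Def_FLTPrelim_Ramification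
import Fermat.Agent.S05.H63.Inertia
import Fermat.Agent.S18.H21.ComapDVR
import Fermat.Agent.S18.H21.NFDescentQbar
import Fermat.Agent.S34.H46.NodeNormal
import Fermat.Agent.S34.H92.BaseDefs

set_option autoImplicit false

noncomputable section

namespace Fermat.Agent.S34.H92

open Fermat.Agent.S18.H21 Polynomial

local notation "Qb" => AlgebraicClosure ℚ

/-- The inclusion `A ∩ E → ℚ̄`. -/
def comapVal (A : ValuationSubring Qb) (E : IntermediateField ℚ Qb) :
    ↥(A.comap (algebraMap E Qb)) →+* Qb :=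
  (algebraMap E Qb).comp (A.comap (algebraMap E Qb)).subtype

/-- An element of `A ∩ E`. -/
def comapMk (A : ValuationSubring Qb) (E : IntermediateField ℚ Qb) (a : Qb) (haE : a ∈ E)
    (haA : a ∈ A) : ↥(A.comap (algebraMap E Qb)) :=
  ⟨⟨a, haE⟩, haA⟩

@[simp] theorem comapVal_comapMk (A : ValuationSubring Qb) (E : IntermediateField ℚ Qb) (a : Qb)
    (haE : a ∈ E) (haA : a ∈ A) : comapVal A E (comapMk A E a haE haA) = a := rfl

theorem comapVal_injective (A : ValuationSubring Qb) (E : IntermediateField ℚ Qb) :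
    Function.Injective (comapVal A E) := by
  intro x y hxy
  exact Subtype.ext (Subtype.ext hxy)

theorem comapVal_mem (A : ValuationSubring Qb) (E : IntermediateField ℚ Qb)
    (x : ↥(A.comap (algebraMap E Qb))) : comapVal A E x ∈ A := x.2

theorem comapVal_mem_field (A : ValuationSubring Qb) (E : IntermediateField ℚ Qb)
    (x : ↥(A.comap (algebraMap E Qb))) : comapVal A E x ∈ E := x.1.2

theorem comapVal_natCast (A : ValuationSubring Qb) (E : IntermediateField ℚ Qb) (n : ℕ) :
    comapVal A E (n : ↥(A.comap (algebraMap E Qb))) = (n : Qb) := map_natCast _ n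

variable {A : ValuationSubring Qb} {q : ℕ} {K E : IntermediateField ℚ Qb} {π : Qb} {e : ℕ}
  {g : Polynomial Qb}

namespace InertiaBase

/-- **The Eisenstein polynomial over the unramified discrete valuation ring `A ∩ E`.** -/
theorem exists_lift (h : InertiaBase A q K E π e g) (hq0 : q ≠ 0) (hg0 : g.coeff 0 ≠ 0) :
    ∃ g₀ : Polynomial ↥(A.comap (algebraMap E Qb)),
      g₀.map (comapVal A E) = g ∧ g₀.Monic ∧ g₀.natDegree = e ∧
      (∀ n < e, ((q : ℕ) : ↥(A.comap (algebraMap E Qb))) ∣ g₀.coeff n) ∧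
      ∃ u₀ : (↥(A.comap (algebraMap E Qb)))ˣ,
        g₀.coeff 0 = ((q : ℕ) : ↥(A.comap (algebraMap E Qb))) * u₀ := by
  have hqQ : (q : Qb) ≠ 0 := Nat.cast_ne_zero.2 hq0
  have hqE : (q : Qb) ∈ E := natCast_mem E q
  have hlifts : g ∈ Polynomial.lifts (comapVal A E) := by
    rw [Polynomial.lifts_iff_coeff_lifts]
    intro n
    exact ⟨comapMk A E (g.coeff n) (h.g_coeff n).1 (h.g_coeff n).2, rfl⟩
  obtain ⟨g₀, hmap, hdeg, hmonic⟩ := Polynomial.lifts_and_natDegree_eq_and_monic hlifts h.g_monic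
  have hcoeff : ∀ n, comapVal A E (g₀.coeff n) = g.coeff n := by
    intro n
    rw [← hmap, Polynomial.coeff_map]
  refine ⟨g₀, hmap, hmonic, hdeg.trans h.g_deg, ?_, ?_⟩
  · intro n hn
    refine ⟨comapMk A E (g.coeff n / q) (E.div_mem (h.g_coeff n).1 hqE) (h.g_low n hn), ?_⟩
    apply comapVal_injective
    rw [map_mul, comapVal_natCast, comapVal_comapMk, hcoeff, mul_div_cancel₀ _ hqQ]
  · have hmul : comapMk A E (g.coeff 0 / q) (E.div_mem (h.g_coeff 0).1 hqE) (h.g_low 0 h.e_pos) *
        comapMk A E (q / g.coeff 0) (E.div_mem hqE (h.g_coeff 0).1) h.g_zero = 1 := by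
      apply comapVal_injective
      rw [map_mul, comapVal_comapMk, comapVal_comapMk, map_one]
      field_simp
    refine ⟨Units.mkOfMulEqOne _ _ hmul, ?_⟩
    apply comapVal_injective
    rw [map_mul, comapVal_natCast, Units.val_mkOfMulEqOne, comapVal_comapMk, hcoeff,
      mul_div_cancel₀ _ hqQ]

/-- `g′(π) ≠ 0`. -/
theorem derivative_eval_ne_zero (h : InertiaBase A q K E π e g) :
    (derivative g).eval π ≠ 0 := by
  intro h0
  have hdeg : (derivative g).natDegree < e := by
    rw [← h.g_deg]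
    exact Polynomial.natDegree_derivative_lt (by rw [h.g_deg]; exact h.e_pos.ne')
  have h1 : ∑ i : Fin e, (derivative g).coeff (i : ℕ) * π ^ (i : ℕ) = 0 := by
    rw [Fin.sum_univ_eq_sum_range (fun i => (derivative g).coeff i * π ^ i) e,
      ← Polynomial.eval_eq_sum_range' hdeg, h0]
  have hcE : ∀ i : Fin e, (derivative g).coeff (i : ℕ) ∈ E := by
    intro i
    rw [Polynomial.coeff_derivative]
    exact E.mul_mem (h.g_coeff _).1 (E.add_mem (natCast_mem E _) E.one_mem)
  have h2 := h.indep (fun i => (derivative g).coeff (i : ℕ)) hcE h1 ⟨e - 1, by have := h.e_pos; omega⟩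
  simp only [Polynomial.coeff_derivative] at h2
  have h3 : e - 1 + 1 = e := by have := h.e_pos; omega
  have h4 : g.coeff (e - 1 + 1) = 1 := by
    rw [h3, ← h.g_deg]
    exact h.g_monic.coeff_natDegree
  rw [h4, one_mul] at h2
  have h5 : ((e - 1 : ℕ) : Qb) + 1 = ((e : ℕ) : Qb) := by
    rw [← Nat.cast_succ, Nat.succ_eq_add_one, h3]
  rw [h5] at h2
  exact h.e_pos.ne' (Nat.cast_eq_zero.1 h2)

/-- **`A ∩ K = (A ∩ E)[π]`.** -/
theorem exists_poly (h : InertiaBase A q K E π e g) (y : Qb) (hyK : y ∈ K) (hyA : y ∈ A) :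
    ∃ f₀ : Polynomial ↥(A.comap (algebraMap E Qb)), (f₀.map (comapVal A E)).eval π = y := by
  obtain ⟨c, hc, rfl⟩ := h.basis y hyK
  have hcA := h.integral c hc hyA
  refine ⟨∑ i : Fin e, C (comapMk A E (c i) (hc i) (hcA i)) * X ^ (i : ℕ), ?_⟩
  rw [Polynomial.map_sum, Polynomial.eval_finsetSum]
  refine Finset.sum_congr rfl fun i _ => ?_
  rw [Polynomial.map_mul, Polynomial.map_C, Polynomial.map_pow, Polynomial.map_X, eval_mul,
    eval_C, eval_pow, eval_X, comapVal_comapMk]

/-- Values of polynomials over `A ∩ E` at `π` lie in `A ∩ K`. -/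
theorem eval_map_mem (h : InertiaBase A q K E π e g)
    (f₀ : Polynomial ↥(A.comap (algebraMap E Qb))) :
    (f₀.map (comapVal A E)).eval π ∈ K ∧ (f₀.map (comapVal A E)).eval π ∈ A := by
  have hπA : π ∈ A := (A.valuation_le_one_iff _).1 (A.mem_nonunits_iff.1 h.π_nonunit).le
  rw [Polynomial.eval_map, Polynomial.eval₂_eq_sum_range]
  constructor
  · exact sum_mem fun i _ => K.mul_mem (h.le (comapVal_mem_field A E _)) (pow_mem h.π_mem i)
  · exact sum_mem fun i _ => A.mul_mem _ _ (comapVal_mem A E _) (pow_mem hπA i)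

theorem ne_top_of_liesOverPrime (hq : q.Prime) (hA : A.LiesOverPrime q) : A ≠ ⊤ := by
  intro htop
  have hqQ : (q : Qb) ≠ 0 := Nat.cast_ne_zero.2 hq.ne_zero
  have h1 : ((q : Qb))⁻¹ ∈ A := by rw [htop]; trivial
  exact (mem_nonunits_iff_inv_not_mem A _ hqQ).1 hA h1

/-- **`q` is a uniformiser of `A ∩ E`** (the shape of `H78.irreducible_natCast_comap_bot`). -/
theorem irreducible_natCast (h : InertiaBase A q K E π e g) (hq : q.Prime)
    (hA : A.LiesOverPrime q) :
    Irreducible ((q : ℕ) : ↥(A.comap (algebraMap E Qb))) := by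
  have hfin := h.fin
  have hqQ : (q : Qb) ≠ 0 := Nat.cast_ne_zero.2 hq.ne_zero
  have hDVR : IsDiscreteValuationRing ↥(A.comap (algebraMap E Qb)) :=
    isDiscreteValuationRing_comap_qbar A (ne_top_of_liesOverPrime hq hA) E
  rw [IsDiscreteValuationRing.irreducible_iff_uniformizer]
  apply le_antisymm
  · intro x hx
    have h1 : comapVal A E x ∈ A.nonunits := by
      have h0 : (x : ↥E) ∈ (A.comap (algebraMap E Qb)).nonunits :=
        ValuationSubring.mem_nonunits_iff_exists_mem_maximalIdeal.2 ⟨x.2, hx⟩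
      exact (mem_nonunits_descend A (algebraMap E Qb) _).1 h0
    have h2 := h.unram _ (comapVal_mem_field A E x) h1
    rw [Ideal.mem_span_singleton]
    refine ⟨comapMk A E (comapVal A E x / q)
      (E.div_mem (comapVal_mem_field A E x) (natCast_mem E q)) h2, ?_⟩
    apply comapVal_injective
    rw [map_mul, comapVal_natCast, comapVal_comapMk, mul_div_cancel₀ _ hqQ]
  · rw [Ideal.span_singleton_le_iff_mem]
    have h1 : ((q : ℕ) : ↥E) ∈ (A.comap (algebraMap E Qb)).nonunits :=
      natCast_mem_nonunits_descend A (algebraMap E Qb) hA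
    obtain ⟨_, h2⟩ := ValuationSubring.mem_nonunits_iff_exists_mem_maximalIdeal.1 h1
    exact h2

/-- **`π` is a uniformiser of `A ∩ K` and `q = π ^ e * unit` there.** -/
theorem exists_unit_pow (h : InertiaBase A q K E π e g) (hq : q.Prime) (hA : A.LiesOverPrime q)
    (hπ0 : π ≠ 0) [FiniteDimensional ℚ K] :
    ∃ π₀ : ↥(A.comap (algebraMap K Qb)), comapVal A K π₀ = π ∧ Irreducible π₀ ∧
      ∃ ε : (↥(A.comap (algebraMap K Qb)))ˣ,
        ((q : ℕ) : ↥(A.comap (algebraMap K Qb))) = π₀ ^ e * ε := by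
  have hqQ : (q : Qb) ≠ 0 := Nat.cast_ne_zero.2 hq.ne_zero
  have hπA : π ∈ A := (A.valuation_le_one_iff _).1 (A.mem_nonunits_iff.1 h.π_nonunit).le
  have hDVR : IsDiscreteValuationRing ↥(A.comap (algebraMap K Qb)) :=
    isDiscreteValuationRing_comap_qbar A (ne_top_of_liesOverPrime hq hA) K
  refine ⟨comapMk A K π h.π_mem hπA, rfl, ?_, ?_⟩
  · rw [IsDiscreteValuationRing.irreducible_iff_uniformizer]
    apply le_antisymm
    · intro x hx
      have h1 : comapVal A K x ∈ A.nonunits := by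
        have h0 : (x : ↥K) ∈ (A.comap (algebraMap K Qb)).nonunits :=
          ValuationSubring.mem_nonunits_iff_exists_mem_maximalIdeal.2 ⟨x.2, hx⟩
        exact (mem_nonunits_descend A (algebraMap K Qb) _).1 h0
      have h2 := h.π_unif _ (comapVal_mem_field A K x) h1
      rw [Ideal.mem_span_singleton]
      refine ⟨comapMk A K (comapVal A K x / π)
        (K.div_mem (comapVal_mem_field A K x) h.π_mem) h2, ?_⟩
      apply comapVal_injective
      rw [map_mul, comapVal_comapMk, comapVal_comapMk, mul_div_cancel₀ _ hπ0]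
    · rw [Ideal.span_singleton_le_iff_mem]
      have h1 : ((⟨π, h.π_mem⟩ : ↥K)) ∈ (A.comap (algebraMap K Qb)).nonunits :=
        (mem_nonunits_descend A (algebraMap K Qb) _).2 h.π_nonunit
      obtain ⟨_, h2⟩ := ValuationSubring.mem_nonunits_iff_exists_mem_maximalIdeal.1 h1
      exact h2
  · have hqK : (q : Qb) ∈ K := natCast_mem K q
    have hmul : comapMk A K ((q : Qb) / π ^ e) (K.div_mem hqK (pow_mem h.π_mem e)) h.div_pow *
        comapMk A K (π ^ e / (q : Qb)) (K.div_mem (pow_mem h.π_mem e) hqK) h.pow_div = 1 := by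
      apply comapVal_injective
      rw [map_mul, comapVal_comapMk, comapVal_comapMk, map_one]
      field_simp
    refine ⟨Units.mkOfMulEqOne _ _ hmul, ?_⟩
    apply comapVal_injective
    rw [map_mul, map_pow, comapVal_natCast, Units.val_mkOfMulEqOne, comapVal_comapMk,
      comapVal_comapMk, mul_div_cancel₀ _ (pow_ne_zero e hπ0)]

/-- **`g′(π)` divides a power of `q` in `(A ∩ E)[π]`** (hypothesis `hD` of
`H46.crossing_glue`). -/
theorem exists_mul_eq_pow (h : InertiaBase A q K E π e g) (hq : q.Prime)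
    (hA : A.LiesOverPrime q) [FiniteDimensional ℚ K] :
    ∃ (m : ℕ) (y₀ : Polynomial ↥(A.comap (algebraMap E Qb))),
      (derivative g).eval π * (y₀.map (comapVal A E)).eval π = (q : Qb) ^ m := by
  have hqQ : (q : Qb) ≠ 0 := Nat.cast_ne_zero.2 hq.ne_zero
  have hDVR : IsDiscreteValuationRing ↥(A.comap (algebraMap K Qb)) :=
    isDiscreteValuationRing_comap_qbar A (ne_top_of_liesOverPrime hq hA) K
  have hlifts : g ∈ Polynomial.lifts (comapVal A E) := by
    rw [Polynomial.lifts_iff_coeff_lifts]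
    intro n
    exact ⟨comapMk A E (g.coeff n) (h.g_coeff n).1 (h.g_coeff n).2, rfl⟩
  obtain ⟨g₀, hmap⟩ := hlifts
  have hmap' : g₀.map (comapVal A E) = g := hmap
  have hd : (derivative g).eval π = ((derivative g₀).map (comapVal A E)).eval π := by
    rw [← Polynomial.derivative_map, hmap']
  obtain ⟨hdK, hdA⟩ := h.eval_map_mem (derivative g₀)
  rw [← hd] at hdK hdA
  have hd0 := h.derivative_eval_ne_zero
  -- in the discrete valuation ring `A ∩ K`
  have hx0 : comapMk A K _ hdK hdA ≠ 0 := by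
    intro h0
    apply hd0
    have := congrArg (comapVal A K) h0
    rwa [comapVal_comapMk, map_zero] at this
  have hq0 : ((q : ℕ) : ↥(A.comap (algebraMap K Qb))) ≠ 0 := by
    intro h0
    apply hqQ
    have := congrArg (comapVal A K) h0
    rwa [comapVal_natCast, map_zero] at this
  have hqnu : ¬ IsUnit ((q : ℕ) : ↥(A.comap (algebraMap K Qb))) := by
    have h1 : ((q : ℕ) : ↥K) ∈ (A.comap (algebraMap K Qb)).nonunits :=
      natCast_mem_nonunits_descend A (algebraMap K Qb) hA
    obtain ⟨_, h2⟩ := ValuationSubring.mem_nonunits_iff_exists_mem_maximalIdeal.1 h1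
    exact (IsLocalRing.mem_maximalIdeal _).1 h2
  obtain ⟨m, y, hy⟩ := Fermat.Agent.S34.H46.exists_mul_eq_pow_of_dvr hq0 hqnu hx0
  obtain ⟨y₀, hy₀⟩ := h.exists_poly (comapVal A K y) (comapVal_mem_field A K y)
    (comapVal_mem A K y)
  refine ⟨m, y₀, ?_⟩
  have := congrArg (comapVal A K) hy
  rw [map_mul, map_pow, comapVal_natCast, comapVal_comapMk] at this
  rw [hy₀]
  exact this

/-- The inertia group moves `π` by a unit of `A`. -/
theorem apply_div_mem (h : InertiaBase A q K E π e g) [Normal ℚ K] {τ : Qb ≃ₐ[ℚ] Qb}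
    (hτ : τ ∈ A.inertiaSubgroupIn ℚ) : τ π / π ∈ A ∧ π / τ π ∈ A := by
  have key : ∀ σ : Qb ≃ₐ[ℚ] Qb, σ ∈ A.inertiaSubgroupIn ℚ → σ π / π ∈ A := by
    intro σ hσ
    have h1 : σ π ∈ K := by
      have h2 := AlgEquiv.restrictNormal_commutes σ K ⟨π, h.π_mem⟩
      have h3 : σ π = algebraMap K Qb (σ.restrictNormal K ⟨π, h.π_mem⟩) := h2.symm
      rw [h3]
      exact (σ.restrictNormal K ⟨π, h.π_mem⟩).2
    have h4 : σ π ∈ A.nonunits :=
      (Fermat.Agent.S05.H63.apply_mem_nonunits_iff_of_mem_inertiaSubgroupIn hσ).2 h.π_nonunit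
    exact h.π_unif _ h1 h4
  refine ⟨key τ hτ, ?_⟩
  have h1 := key τ⁻¹ ((A.inertiaSubgroupIn ℚ).inv_mem hτ)
  have h2 := Fermat.Agent.S05.H63.apply_mem_of_mem_inertiaSubgroupIn hτ h1
  have h3 : τ (τ⁻¹ π) = π := by
    change τ (τ.symm π) = π
    exact τ.apply_symm_apply π
  rwa [map_div₀, h3] at h2

end InertiaBase

end Fermat.Agent.S34.H92
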