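/-
Program B' (S34), leaf (BASE) (helper92), complement (F1) for the Frobenius twist over the
inertia-field base: the decomposition group of `A` maps the inertia field `inertiaField A K` of a
finite Galois `K ⊆ ℚ̄` into itself (the inertia group is normal in the decomposition group).  The
inertia field is in general not normal over `ℚ`, so this is what replaces normality when the
Galois action of a Frobenius element is restricted to the `E`-form of a function field.

* `restrictNormal_smul_mem_nfCentre_iff` : the restriction to `K` of an element of the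
  decomposition group stabilises the centre of `A ∩ K`;
* `apply_mem_inertiaField`, `symm_apply_mem_inertiaField`, `apply_mem_inertiaField_iff`.
-/
import Mathlib
import Fermat.Agent.S34.H92.BaseFinal

set_option autoImplicit false
set_option linter.unusedSectionVars false

noncomputable section

namespace Fermat.Agent.S34.H92

open Fermat.Agent.S18.H21 NumberField

local notation "Qb" => AlgebraicClosure ℚ

attribute [local instance] Fermat.Agent.S18.H21.numberField_of_finiteDimensional

variable (A : ValuationSubring Qb) (K : IntermediateField ℚ Qb) [FiniteDimensional ℚ K]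

/-- The restriction to `K` of an element of the decomposition group of `A` stabilises the centre
of `A ∩ K`. -/
theorem restrictNormal_smul_mem_nfCentre_iff [Normal ℚ K] {s : Qb ≃ₐ[ℚ] Qb}
    (hs : s ∈ A.decompositionSubgroup ℚ) (x : 𝓞 ↥K) :
    s.restrictNormal ↥K • x ∈ nfCentre (valK A K) ↔ x ∈ nfCentre (valK A K) := by
  rw [mem_nfCentre_iff, mem_nonunits_descend, mem_nfCentre_iff, mem_nonunits_descend]
  have h2 : algebraMap ↥K Qb (algebraMap (𝓞 ↥K) ↥K (s.restrictNormal ↥K • x)) =
      s (algebraMap ↥K Qb (algebraMap (𝓞 ↥K) ↥K x)) := by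
    rw [← AlgEquiv.restrictNormal_commutes]
    rfl
  rw [h2]
  exact Fermat.Agent.S05.H63.apply_mem_nonunits_iff_of_mem_decompositionSubgroup hs

/-- **(F1)** the decomposition group of `A` maps the inertia field into itself. -/
theorem apply_mem_inertiaField [Normal ℚ K] {s : Qb ≃ₐ[ℚ] Qb}
    (hs : s ∈ A.decompositionSubgroup ℚ) {a : Qb} (ha : a ∈ inertiaField A K) :
    s a ∈ inertiaField A K := by
  obtain ⟨a₀, ha₀, rfl⟩ := (mem_inertiaField_iff A K a).1 ha
  rw [mem_inertiaField_iff]
  refine ⟨s.restrictNormal ↥K a₀, ?_, AlgEquiv.restrictNormal_commutes s ↥K a₀⟩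
  rw [mem_inertiaFld_iff]
  intro σ hσ
  set s₀ := s.restrictNormal ↥K with hs₀
  have hconj : s₀⁻¹ * σ * s₀ ∈ Ideal.inertia Gal(↥K/ℚ) (nfCentre (valK A K)) := by
    intro x
    have h1 : (s₀⁻¹ * σ * s₀) • x - x = s₀⁻¹ • (σ • (s₀ • x) - s₀ • x) := by
      rw [smul_sub, mul_smul, mul_smul, inv_smul_smul]
    rw [h1]
    have h2 := hσ (s₀ • x)
    have h3 := restrictNormal_smul_mem_nfCentre_iff A K hs (s₀⁻¹ • (σ • (s₀ • x) - s₀ • x))
    rw [smul_inv_smul] at h3
    exact h3.1 h2
  have h3 := (mem_inertiaFld_iff (nfCentre (valK A K)) a₀).1 ha₀ _ hconj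
  have h4 : s₀ ((s₀⁻¹ * σ * s₀) a₀) = σ (s₀ a₀) := by
    rw [AlgEquiv.mul_apply, AlgEquiv.mul_apply]
    exact AlgEquiv.apply_symm_apply s₀ _
  rw [← h4, h3]

/-- **(F1)**, inverse form. -/
theorem symm_apply_mem_inertiaField [Normal ℚ K] {s : Qb ≃ₐ[ℚ] Qb}
    (hs : s ∈ A.decompositionSubgroup ℚ) {a : Qb} (ha : a ∈ inertiaField A K) :
    s.symm a ∈ inertiaField A K :=
  apply_mem_inertiaField A K ((A.decompositionSubgroup ℚ).inv_mem hs) ha

/-- **(F1)**, two-sided form. -/
theorem apply_mem_inertiaField_iff [Normal ℚ K] {s : Qb ≃ₐ[ℚ] Qb}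
    (hs : s ∈ A.decompositionSubgroup ℚ) {a : Qb} :
    s a ∈ inertiaField A K ↔ a ∈ inertiaField A K := by
  refine ⟨fun h => ?_, fun h => apply_mem_inertiaField A K hs h⟩
  have h2 := symm_apply_mem_inertiaField A K hs h
  rwa [AlgEquiv.symm_apply_apply] at h2

end Fermat.Agent.S34.H92
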