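/-
Program B' (S34), M6b concrete layer (helper92): the point transfer from the chart over the
ramified base `A ∩ K` to the chart over the unramified base `A ∩ E` (`E` the inertia field of the
finite Galois `K/ℚ` at `A`, `hB : InertiaBase A q K E π e g`).

* `chart_hom_isIntegral` (abstract): if `AK` is integral over `AE`, then the chart over `AK` is
  integral over the chart over `AE`;
* `valIncl_isIntegral` : `A ∩ K` is integral over `A ∩ E` (`A ∩ K = (A ∩ E)[π]`);
* `chartIncl_isIntegral` : `H46.chartIncl` is an integral ring homomorphism;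
* `comap_chartIncl_isMaximal` : a closed point `x` of the chart over `A ∩ K` lies over a closed
  point `x₀ = x.comap chartIncl` of the chart over `A ∩ E`;
* `mem_comap_chartIncl_of_mem_nonunits` : if `x` contains the centre of a valuation ring `O` of
  `F_N` on the chart over `A ∩ K`, then `x₀` contains its centre on the chart over `A ∩ E`
  (a crossing point lies over a crossing point: apply it to the two Gauss rings);
* `crossing_point_transfer` : the three facts together, for two valuation rings `O₁`, `O₂`;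
* `exists_natCast_eq_pow_mul_unit` : in a discrete valuation ring of characteristic zero,
  `q = ϖ ^ e * ε` for any uniformiser `ϖ` (the hypothesis `hq` of
  `Fermat.Agent.S34.H77.crossing_hgen_atPrime`);
* `InertiaBase.isDVR_bot`, `InertiaBase.isDVR_top` : the two base rings are discrete valuation
  rings.
-/
import Mathlib
import Fermat.Agent.S18.H21.ComapDVR
import Fermat.Agent.S34.H46.BaseConcrete

set_option autoImplicit false
set_option linter.unusedSectionVars false
set_option linter.style.haveILetI false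

open IntermediateField Polynomial ModularCurve AlgebraicCurve

noncomputable section

namespace Fermat.Agent.S34.H92

open Fermat.Agent.S18 Fermat.Agent.S18.H74 Fermat.Agent.S18.H19 Fermat.Agent.S34.H19
  Fermat.Agent.S34.H61 Fermat.Agent.S34.H46

/-! ### Abstract: integrality of the chart over a larger base -/

/-- If `AK` is integral over `AE`, the chart over `AK` is integral over the chart over `AE`. -/
theorem chart_hom_isIntegral {AE AK FE FK : Type*} [CommRing AE] [CommRing AK] [Field FE]
    [Field FK] [Algebra AE FE] [Algebra AK FK] (ιA : AE →+* AK) (ι : FE →+* FK)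
    (hι : ∀ a : AE, ι (algebraMap AE FE a) = algebraMap AK FK (ιA a)) (hA : ιA.IsIntegral)
    (j : FE) (f : ↥(chart AE j) →+* ↥(chart AK (ι j)))
    (hf : ∀ a : ↥(chart AE j), ((f a : ↥(chart AK (ι j))) : FK) = ι (a : FE)) :
    f.IsIntegral := by
  intro c
  let φ : ↥(chart AE j) →+* FK := ι.comp (algebraMap ↥(chart AE j) FE)
  letI algφ : Algebra ↥(chart AE j) FK := φ.toAlgebra
  have hφ : ∀ a : ↥(chart AE j), algebraMap ↥(chart AE j) FK a = ι (a : FE) := fun _ => rfl
  have hB : ∀ b ∈ Algebra.adjoin AK ({ι j} : Set FK), IsIntegral ↥(chart AE j) b := by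
    intro b hb
    induction hb using Algebra.adjoin_induction with
    | mem x hx =>
      rw [Set.mem_singleton_iff] at hx
      rw [hx]
      exact isIntegral_algebraMap (x := (⟨j, self_mem_chart AE j⟩ : ↥(chart AE j)))
    | algebraMap r =>
      obtain ⟨p, hp, hpr⟩ := hA r
      refine ⟨p.map (algebraMap AE ↥(chart AE j)), hp.map _, ?_⟩
      rw [Polynomial.eval₂_map]
      have hcomp : (algebraMap ↥(chart AE j) FK).comp (algebraMap AE ↥(chart AE j)) =
          (algebraMap AK FK).comp ιA := by
        ext a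
        exact hι a
      rw [hcomp, ← Polynomial.hom_eval₂, hpr, map_zero]
    | add x y _ _ hx hy => exact hx.add hy
    | mul x y _ _ hx hy => exact hx.mul hy
  have hc : IsIntegral ↥(chart AE j) (c : FK) :=
    isIntegral_of_isIntegral_subalgebra (Algebra.adjoin AK ({ι j} : Set FK)) hB c.2
  obtain ⟨p, hp, hpc⟩ := hc
  refine ⟨p, hp, ?_⟩
  apply Subtype.ext
  have hcomp : (algebraMap ↥(chart AK (ι j)) FK).comp f = algebraMap ↥(chart AE j) FK := by
    ext a
    exact hf a
  have h1 : ((p.eval₂ f c : ↥(chart AK (ι j))) : FK) =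
      p.eval₂ ((algebraMap ↥(chart AK (ι j)) FK).comp f) (c : FK) :=
    Polynomial.hom_eval₂ p f (algebraMap ↥(chart AK (ι j)) FK) c
  rw [h1, hcomp]
  exact hpc

/-! ### The concrete model -/

section concrete

variable (N : ℕ) (A : ValuationSubring Kb) {q : ℕ} {K E : IntermediateField ℚ Kb} {π : Kb}
  {e : ℕ} {g : Polynomial Kb}

/-- `A ∩ K` is integral over `A ∩ E`. -/
theorem valIncl_isIntegral (hB : InertiaBase A q K E π e g) : (valIncl A hB.le).IsIntegral := by
  letI alg : Algebra ↥(A.comap (algebraMap (↥E) Kb)) ↥(A.comap (algebraMap (↥K) Kb)) :=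
    (valIncl A hB.le).toAlgebra
  intro y
  show IsIntegral ↥(A.comap (algebraMap (↥E) Kb)) y
  obtain ⟨g₀, hmonic, -, hg₀⟩ := base_exists_descent hB
  have hπ : IsIntegral ↥(A.comap (algebraMap (↥E) Kb)) (baseGen hB) :=
    ⟨g₀, hmonic, base_root g₀ hB hg₀⟩
  obtain ⟨c, rfl⟩ := base_exists_eq_sum hB y
  refine IsIntegral.sum _ fun i _ => ?_
  exact (isIntegral_algebraMap (x := c i)).mul (hπ.pow _)

/-- `H46.chartIncl` is an integral ring homomorphism. -/
theorem chartIncl_isIntegral (hB : InertiaBase A q K E π e g) (j : ↥(ratForm N E)) :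
    letI := algComap (A.comap (algebraMap (↥E) Kb)) (ratForm N E)
    letI := algComap (A.comap (algebraMap (↥K) Kb)) (ratForm N K)
    (chartIncl N A hB.le j).IsIntegral := by
  letI algE := algComap (A.comap (algebraMap (↥E) Kb)) (ratForm N E)
  letI algK := algComap (A.comap (algebraMap (↥K) Kb)) (ratForm N K)
  exact chart_hom_isIntegral (valIncl A hB.le) (ratIncl N hB.le) (ratIncl_algebraMap N A hB.le)
    (valIncl_isIntegral A hB) j (chartIncl N A hB.le j) (coe_chartIncl N A hB.le j)

/-- A closed point of the chart over `A ∩ K` lies over a closed point of the chart over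
`A ∩ E`. -/
theorem comap_chartIncl_isMaximal (hB : InertiaBase A q K E π e g) (j : ↥(ratForm N E)) :
    letI := algComap (A.comap (algebraMap (↥E) Kb)) (ratForm N E)
    letI := algComap (A.comap (algebraMap (↥K) Kb)) (ratForm N K)
    ∀ (x : Ideal ↥(chart (↥(A.comap (algebraMap (↥K) Kb))) (ratIncl N hB.le j))) [x.IsMaximal],
      (x.comap (chartIncl N A hB.le j)).IsMaximal := by
  letI algE := algComap (A.comap (algebraMap (↥E) Kb)) (ratForm N E)
  letI algK := algComap (A.comap (algebraMap (↥K) Kb)) (ratForm N K)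
  intro x _
  exact Ideal.isMaximal_comap_of_isIntegral_of_isMaximal' _ (chartIncl_isIntegral N A hB j) x

/-- If the closed point `x` of the chart over `A ∩ K` contains the centre of the valuation ring
`O` of `F_N`, then `x₀ = x.comap chartIncl` contains the centre of `O` on the chart over
`A ∩ E`. -/
theorem mem_comap_chartIncl_of_mem_nonunits {E K : IntermediateField ℚ Kb} (hEK : E ≤ K)
    (j : ↥(ratForm N E)) (O : ValuationSubring (FN N)) :
    letI := algComap (A.comap (algebraMap (↥E) Kb)) (ratForm N E)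
    letI := algComap (A.comap (algebraMap (↥K) Kb)) (ratForm N K)
    ∀ (x : Ideal ↥(chart (↥(A.comap (algebraMap (↥K) Kb))) (ratIncl N hEK j))),
      (∀ c : ↥(chart (↥(A.comap (algebraMap (↥K) Kb))) (ratIncl N hEK j)),
        (c : ↥(ratForm N K)) ∈ (O.comap (algebraMap ↥(ratForm N K) (FN N))).nonunits → c ∈ x) →
      ∀ c₀ : ↥(chart (↥(A.comap (algebraMap (↥E) Kb))) j),
        (c₀ : ↥(ratForm N E)) ∈ (O.comap (algebraMap ↥(ratForm N E) (FN N))).nonunits →
          c₀ ∈ x.comap (chartIncl N A hEK j) := by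
  letI algE := algComap (A.comap (algebraMap (↥E) Kb)) (ratForm N E)
  letI algK := algComap (A.comap (algebraMap (↥K) Kb)) (ratForm N K)
  intro x hx c₀ hc₀
  rw [Ideal.mem_comap]
  apply hx
  rw [coe_chartIncl]
  rw [ValuationSubring.mem_nonunits_iff_or] at hc₀ ⊢
  rcases hc₀ with h0 | hinv
  · left
    rw [h0, map_zero]
  · right
    intro h
    apply hinv
    have h1 : ((ratIncl N hEK (c₀ : ↥(ratForm N E)))⁻¹ : ↥(ratForm N K)) =
        ratIncl N hEK ((c₀ : ↥(ratForm N E))⁻¹) := (map_inv₀ _ _).symm
    rw [h1] at h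
    exact h

/-- **Point transfer**: a closed point of the chart over `A ∩ K` on the centres of `O₁` and `O₂`
lies over a closed point of the chart over `A ∩ E` on the centres of `O₁` and `O₂` (the
hypotheses `x₀`, `h₁`, `h₂` of `Fermat.Agent.S34.H68.crossing_regular_of_dsetup`). -/
theorem crossing_point_transfer (hB : InertiaBase A q K E π e g) (j : ↥(ratForm N E))
    (O₁ O₂ : ValuationSubring (FN N)) :
    letI := algComap (A.comap (algebraMap (↥E) Kb)) (ratForm N E)
    letI := algComap (A.comap (algebraMap (↥K) Kb)) (ratForm N K)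
    ∀ (x : Ideal ↥(chart (↥(A.comap (algebraMap (↥K) Kb))) (ratIncl N hB.le j))) [x.IsMaximal],
      (∀ c : ↥(chart (↥(A.comap (algebraMap (↥K) Kb))) (ratIncl N hB.le j)),
        (c : ↥(ratForm N K)) ∈ (O₁.comap (algebraMap ↥(ratForm N K) (FN N))).nonunits → c ∈ x) →
      (∀ c : ↥(chart (↥(A.comap (algebraMap (↥K) Kb))) (ratIncl N hB.le j)),
        (c : ↥(ratForm N K)) ∈ (O₂.comap (algebraMap ↥(ratForm N K) (FN N))).nonunits → c ∈ x) →
      (x.comap (chartIncl N A hB.le j)).IsMaximal ∧
      (∀ c₀ : ↥(chart (↥(A.comap (algebraMap (↥E) Kb))) j),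
        (c₀ : ↥(ratForm N E)) ∈ (O₁.comap (algebraMap ↥(ratForm N E) (FN N))).nonunits →
          c₀ ∈ x.comap (chartIncl N A hB.le j)) ∧
      (∀ c₀ : ↥(chart (↥(A.comap (algebraMap (↥E) Kb))) j),
        (c₀ : ↥(ratForm N E)) ∈ (O₂.comap (algebraMap ↥(ratForm N E) (FN N))).nonunits →
          c₀ ∈ x.comap (chartIncl N A hB.le j)) := by
  letI algE := algComap (A.comap (algebraMap (↥E) Kb)) (ratForm N E)
  letI algK := algComap (A.comap (algebraMap (↥K) Kb)) (ratForm N K)
  intro x _ h₁ h₂
  exact ⟨comap_chartIncl_isMaximal N A hB j x,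
    mem_comap_chartIncl_of_mem_nonunits N A hB.le j O₁ x h₁,
    mem_comap_chartIncl_of_mem_nonunits N A hB.le j O₂ x h₂⟩

end concrete

/-! ### The numbers -/

/-- In a discrete valuation ring of characteristic zero, `q = ϖ ^ e * ε` for any uniformiser
`ϖ`. -/
theorem exists_natCast_eq_pow_mul_unit {R : Type*} [CommRing R] [IsDomain R]
    [IsDiscreteValuationRing R] [CharZero R] {q : ℕ} (hq : q ≠ 0) (ϖ : R) (hϖ : Irreducible ϖ) :
    ∃ (e : ℕ) (ε : Rˣ), ((q : ℕ) : R) = ϖ ^ e * (ε : R) := by
  have hq0 : ((q : ℕ) : R) ≠ 0 := Nat.cast_ne_zero.mpr hq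
  obtain ⟨n, u, hu⟩ := IsDiscreteValuationRing.eq_unit_mul_pow_irreducible hq0 hϖ
  exact ⟨n, u, by rw [hu, mul_comm]⟩

section instances

variable {A : ValuationSubring Kb} {q : ℕ} {K E : IntermediateField ℚ Kb} {π : Kb}
  {e : ℕ} {g : Polynomial Kb}

/-- `A ∩ E` is a discrete valuation ring. -/
theorem InertiaBase.isDVR_bot (hB : InertiaBase A q K E π e g) (hAtop : A ≠ ⊤) :
    IsDiscreteValuationRing ↥(A.comap (algebraMap (↥E) Kb)) :=
  haveI := hB.fin
  Fermat.Agent.S18.H21.isDiscreteValuationRing_comap_qbar A hAtop E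

/-- `A ∩ K` is a discrete valuation ring. -/
theorem InertiaBase.isDVR_top (_hB : InertiaBase A q K E π e g) (hAtop : A ≠ ⊤)
    [FiniteDimensional ℚ K] : IsDiscreteValuationRing ↥(A.comap (algebraMap (↥K) Kb)) :=
  Fermat.Agent.S18.H21.isDiscreteValuationRing_comap_qbar A hAtop K

end instances

end Fermat.Agent.S34.H92
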