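/-
Program B' (S34), M6b concrete layer (helper92), piece (P1): the chart facts over the UNRAMIFIED
base `A ∩ E` (`E ⊆ ℚ̄` any number field in which `q` is a uniformiser of `A ∩ E`, e.g. the inertia
field `E = inertiaField A K₀` of a normal number field `K₀`; `E` need not be normal over `ℚ`).

For an admissible base function `x₀` of the good level `M` and `jE = α(x₀)` in the `E`-form of
`F_{Mq}`:

* `vGood_unramified` : helper10's `H10.VGood` for the uniformiser `q`, the two charts of `jE` and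
  the two Gauss rings of the `E`-form;
* `chartE_facts` : the chart `chart (A ∩ E) jE` is integrally closed, noetherian, has fraction
  field `ratForm (M * q) E`, and its special fibre is reduced: `(q)` is a radical ideal
  (the hypotheses `hicl`, `hfrac`, `hrad` of `Fermat.Agent.S34.H46.chart_dec_ratForm_hom` and
  `Fermat.Agent.S34.H46.hgen_ratForm_of_regular`);
* `chartE_facts_inertiaField` : the same for `E = inertiaField A K₀`.
-/
import Mathlib
import Fermat.Agent.S34.H30.ChartClose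
import Fermat.Agent.S34.H61.Concrete3
import Fermat.Agent.S34.H59.FDeg
import Fermat.Agent.S34.H97.Radical
import Fermat.Agent.S34.H92.BaseFinal
import Fermat.Agent.S34.H92.BaseAdapt

set_option autoImplicit false
set_option linter.style.haveILetI false
set_option linter.unusedSectionVars false

open AlgebraicCurve ModularCurve

noncomputable section

namespace Fermat.Agent.S34.H92

open Fermat.Agent.S34.H27 Fermat.Agent.S34.H10 Fermat.Agent.S34.H7
  Fermat.Agent.S18 Fermat.Agent.S18.H74 Fermat.Agent.S18.H19 Fermat.Agent.S34.H19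
  Fermat.Agent.S34.H61 Fermat.Agent.S34.H64 Fermat.Agent.S34.H30

/-- The fraction-field instance of a subalgebra of a field from the elementwise statement. -/
theorem isFractionRing_subalgebra_of_frac {A₀ F : Type*} [CommRing A₀] [Field F] [Algebra A₀ F]
    (C : Subalgebra A₀ F) (hfrac : ∀ y : F, ∃ a ∈ C, ∃ b ∈ C, b ≠ 0 ∧ y = a / b) :
    IsFractionRing ↥C F := by
  refine IsFractionRing.of_field ↥C F fun z => ?_
  obtain ⟨a, ha, b, hb, -, hz⟩ := hfrac z
  exact ⟨⟨a, ha⟩, ⟨b, hb⟩, hz⟩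

/-- **`VGood` over an unramified base**: the two-valuation fields for the uniformiser `q` of
`A ∩ E`, the charts of `α(x₀)` and the two Gauss rings of the `E`-form of `F_{Mq}`. -/
theorem vGood_unramified (M q : ℕ) [NeZero M] [Fact q.Prime] (hqM : ¬ q ∣ M)
    (A : ValuationSubring Kb) (hA : A.LiesOverPrime q) (hAtop : A ≠ ⊤)
    (O₁ : ValuationSubring (FN (M * q))) (w : FN (M * q) ≃+* FN (M * q))
    (hTG : TwoGauss M q hqM A hA O₁ w) (x₀ : FN M) (hx₀ : IsBase M q hqM A hA x₀)
    (E : IntermediateField ℚ Kb) [FiniteDimensional ℚ E]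
    (hqE : Irreducible ((q : ℕ) : ↥(A.comap (algebraMap E Kb))))
    (jE : ↥(ratForm (M * q) E)) (hjE : (jE : FN (M * q)) = heckeAlphaBar Kb M q x₀) :
    letI := algComap (A.comap (algebraMap E Kb)) (ratForm (M * q) E)
    VGood ((q : ℕ) : ↥(A.comap (algebraMap E Kb))) jE
      (chart ↥(A.comap (algebraMap E Kb)) jE) (chart ↥(A.comap (algebraMap E Kb)) jE⁻¹)
      (gaussOne M q O₁ E) (gaussTwoForm M q O₁ w E) := by
  letI := algComap (A.comap (algebraMap E Kb)) (ratForm (M * q) E)
  haveI : NeZero q := ⟨(Fact.out : q.Prime).ne_zero⟩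
  haveI := Fermat.Agent.S18.H21.isDiscreteValuationRing_comap_qbar A hAtop E
  have hxm : x₀ ∈ ratForm M E := mem_ratForm_of_mem_range M E hx₀.1
  obtain ⟨hS, hS'⟩ := hx₀.2 E hxm
  have hdeg := Fermat.Agent.S34.H59.finrank_alphaForm M q E Fact.out hqM
  have hV := vGood_ratForm_of_finrank hTG E _ hqE ⟨x₀, hxm⟩ hS hS' hdeg
  have hjeq : jE = alphaForm M q E ⟨x₀, hxm⟩ := by
    apply Subtype.ext
    exact hjE
  rw [hjeq]
  exact hV

/-- **(P1) The chart over an unramified base**: integrally closed, noetherian, with fraction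
field the `E`-form, and reduced special fibre. -/
theorem chartE_facts (M q : ℕ) [NeZero M] [Fact q.Prime] (hqM : ¬ q ∣ M)
    (A : ValuationSubring Kb) (hA : A.LiesOverPrime q) (hAtop : A ≠ ⊤)
    (O₁ : ValuationSubring (FN (M * q))) (w : FN (M * q) ≃+* FN (M * q))
    (hTG : TwoGauss M q hqM A hA O₁ w) (x₀ : FN M) (hx₀ : IsBase M q hqM A hA x₀)
    (E : IntermediateField ℚ Kb) [FiniteDimensional ℚ E]
    (hqE : Irreducible ((q : ℕ) : ↥(A.comap (algebraMap E Kb))))
    (jE : ↥(ratForm (M * q) E)) (hjE : (jE : FN (M * q)) = heckeAlphaBar Kb M q x₀) :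
    letI := algComap (A.comap (algebraMap E Kb)) (ratForm (M * q) E)
    IsIntegrallyClosed ↥(chart ↥(A.comap (algebraMap E Kb)) jE) ∧
    IsNoetherianRing ↥(chart ↥(A.comap (algebraMap E Kb)) jE) ∧
    IsFractionRing ↥(chart ↥(A.comap (algebraMap E Kb)) jE) ↥(ratForm (M * q) E) ∧
    (Ideal.span {((q : ℕ) : ↥(chart ↥(A.comap (algebraMap E Kb)) jE))}).IsRadical := by
  letI := algComap (A.comap (algebraMap E Kb)) (ratForm (M * q) E)
  haveI : NeZero q := ⟨(Fact.out : q.Prime).ne_zero⟩
  haveI : NeZero (M * q) := ⟨Nat.mul_ne_zero (NeZero.ne M) (NeZero.ne q)⟩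
  have htr : Transcendental Kb (jE : FN (M * q)) := by rw [hjE]; exact hx₀.alpha_transcendental
  have hrat : (jE : FN (M * q)) ∈ Set.range (ratEmb (M * q)) := by rw [hjE]; exact hx₀.alpha_rat
  have hC := Fermat.Agent.S34.H44.ratForm_chartsGood_of_mem (M * q) A E hAtop jE hrat htr
  have hV := vGood_unramified M q hqM A hA hAtop O₁ w hTG x₀ hx₀ E hqE jE hjE
  have hq0 : ((q : ℕ) : ↥(ratForm (M * q) E)) ≠ 0 :=
    Nat.cast_ne_zero.mpr (Fact.out : q.Prime).ne_zero
  refine ⟨hC.icl₁, hC.noeth₁, ?_, ?_⟩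
  · exact isFractionRing_subalgebra_of_frac _ hC.frac₁
  · exact Fermat.Agent.S34.H97.span_natCast_isRadical_of_unif_sat q hq0 _ _ _
      hV.unif₁ hV.unif₂ hV.le₁₁ hV.le₁₂ hV.sat₁

/-- **(P1) for the inertia field** of a normal number field `K₀` at `A`. -/
theorem chartE_facts_inertiaField (M q : ℕ) [NeZero M] [Fact q.Prime] (hqM : ¬ q ∣ M)
    (A : ValuationSubring Kb) (hA : A.LiesOverPrime q) (hAtop : A ≠ ⊤)
    (O₁ : ValuationSubring (FN (M * q))) (w : FN (M * q) ≃+* FN (M * q))
    (hTG : TwoGauss M q hqM A hA O₁ w) (x₀ : FN M) (hx₀ : IsBase M q hqM A hA x₀)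
    (K₀ : IntermediateField ℚ Kb) [FiniteDimensional ℚ K₀] [Normal ℚ K₀]
    (jE : ↥(ratForm (M * q) (inertiaField A K₀)))
    (hjE : (jE : FN (M * q)) = heckeAlphaBar Kb M q x₀) :
    letI := algComap (A.comap (algebraMap (inertiaField A K₀) Kb))
      (ratForm (M * q) (inertiaField A K₀))
    IsIntegrallyClosed ↥(chart ↥(A.comap (algebraMap (inertiaField A K₀) Kb)) jE) ∧
    IsNoetherianRing ↥(chart ↥(A.comap (algebraMap (inertiaField A K₀) Kb)) jE) ∧
    IsFractionRing ↥(chart ↥(A.comap (algebraMap (inertiaField A K₀) Kb)) jE)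
      ↥(ratForm (M * q) (inertiaField A K₀)) ∧
    (Ideal.span {((q : ℕ) :
      ↥(chart ↥(A.comap (algebraMap (inertiaField A K₀) Kb)) jE))}).IsRadical := by
  obtain ⟨π, e, g, hB, -, -⟩ := inertiaBase_exists A K₀ q Fact.out hA
  haveI := hB.fin
  exact chartE_facts M q hqM A hA hAtop O₁ w hTG x₀ hx₀ (inertiaField A K₀)
    (hB.irreducible_natCast Fact.out hA) jE hjE

end Fermat.Agent.S34.H92
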